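import Fermat.Agent.GrunwaldWang.Classes
import Fermat.Agent.Ideles.Existence
import Mathlib.GroupTheory.FiniteAbelian.Duality

/-!
# Characters with prescribed local components

Given characters of order dividing `n` at finitely many primes and at the infinite places, a
character of the ideles trivial on the principal ones, of order dividing `n`, with these components
exists unless the case is special, the primes contain those where the special element is no power and
the product of the components at that element is not `1`; then it does not exist.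
-/

set_option autoImplicit false
set_option linter.unusedSectionVars false
set_option linter.style.haveILetI false

noncomputable section

open NumberField NumberField.InfinitePlace NumberField.InfinitePlace.Completion IsDedekindDomain
open WithZero
open FA.ArtinRec FA.Ideles FA.LocalCFT
open FA.QuadFormsNF (valued_algebraMap)
open scoped Classical

namespace FA.GrunwaldWang

universe u

variable {K : Type u} [Field K] [NumberField K] (S : Finset (HeightOneSpectrum (𝓞 K)))
  (χ : ∀ v : HeightOneSpectrum (𝓞 K), (v.adicCompletion K)ˣ →* ℂˣ)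
  (ψ : ∀ w : InfinitePlace K, w.Completionˣ →* ℂˣ)

/-- The product of the components. -/
def localProd : Idele K →* ℂˣ :=
  (∏ v ∈ S, (χ v).comp (finComp v)) * ∏ w : InfinitePlace K, (ψ w).comp (infComp w)

theorem localProd_apply (x : Idele K) :
    localProd S χ ψ x = (∏ v ∈ S, χ v (finComp v x)) * ∏ w, ψ w (infComp w x) := by
  simp only [localProd, MonoidHom.mul_apply, MonoidHom.finsetProd_apply, MonoidHom.comp_apply]

/-- Ideles supported in `S` and at infinity. -/
def supportedSub : Subgroup (Idele K) :=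
  ⨅ v : {v : HeightOneSpectrum (𝓞 K) // v ∉ S}, (finComp v.1).ker

theorem mem_supportedSub {x : Idele K} :
    x ∈ supportedSub S ↔ ∀ v ∉ S, finComp v x = 1 := by
  simp [supportedSub, Subgroup.mem_iInf]

variable {S χ ψ} {n : ℕ}

/-- The components at a square. -/
theorem psi_sq {G : Type*} [CommGroup G] {ψ : ∀ w : InfinitePlace K, w.Completionˣ →* G} (hψpos : ∀ w (z : (w : InfinitePlace K).Completionˣ), (∀ hr : IsReal w,
      0 < extensionEmbeddingOfIsReal hr (z : w.Completion)) → ψ w z = 1)
    (w : InfinitePlace K) (z : w.Completionˣ) : ψ w (z ^ 2) = 1 :=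
  hψpos w _ fun hr => by
    rw [Units.val_pow_eq_pow_val, map_pow]
    exact sq_pos_iff.2 (extension_ne_zero hr z)

/-- The special element as a square. -/
theorem IsSpecial.exists_sq {η : K} (hη : IsSpecial n η) (A : Kˣ) (hA : (A : K) = wangElt n η) :
    ∃ b : Kˣ, A = b ^ 2 := by
  obtain ⟨d, hd⟩ := hη.eight_dvd
  obtain ⟨⟨s, hs, -⟩, -⟩ := hη
  refine ⟨Units.mk0 ((2 + η) ^ (2 * d)) (pow_ne_zero _ hs.two_add_ne_zero), Units.ext ?_⟩
  rw [hA, wangElt, Units.val_pow_eq_pow_val, Units.val_mk0, ← pow_mul, hd]
  congr 1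
  omega

/-- **Existence of the character.** -/
theorem exists_character (hn : 0 < n)
    (hχopen : ∀ v ∈ S, IsOpen ((χ v).ker : Set (v.adicCompletion K)ˣ))
    (hχn : ∀ v ∈ S, ∀ z, χ v z ^ n = 1)
    (hψn : ∀ w z, ψ w z ^ n = 1)
    (hψpos : ∀ w (z : (w : InfinitePlace K).Completionˣ), (∀ hr : IsReal w,
      0 < extensionEmbeddingOfIsReal hr (z : w.Completion)) → ψ w z = 1)
    (hcond : ∀ η : K, IsSpecial n η →
      {v : HeightOneSpectrum (𝓞 K) | NoSquares (v.adicCompletion K) η} ⊆ S →
        ∀ A : Kˣ, (A : K) = wangElt n η → ∏ v ∈ S, χ v (localEmb v A) = 1) :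
    ∃ Θ : Idele K →* ℂˣ, IsOpen (Θ.ker : Set (Idele K)) ∧ (∀ a, Θ (principal a) = 1) ∧
      (∀ x, Θ x ^ n = 1) ∧ (∀ v ∈ S, ∀ z, Θ (single v z) = χ v z) ∧
      ∀ w z, Θ (infSingle w z) = ψ w z := by
  obtain ⟨T, hTS, hT⟩ := exists_detecting_primes S hn
  set W : Finset (HeightOneSpectrum (𝓞 K)) := S ∪ T
  choose kp hkp using fun v : HeightOneSpectrum (𝓞 K) => exists_nearLocal_pow v hn.ne'
  have hks : ∀ v, ∃ k, v ∈ S → nearLocal v k ≤ (χ v).ker := fun v => by
    by_cases hv : v ∈ S
    · obtain ⟨k, hk⟩ := exists_nearLocal_le (hχopen v hv)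
      exact ⟨k, fun _ => hk⟩
    · exact ⟨0, fun h => absurd h hv⟩
  choose ks hks using hks
  set k := W.sup fun v => max (kp v) (ks v)
  set H : Subgroup (Idele K) := (principal (K := K)).range ⊔
    levelSub (W : Set (HeightOneSpectrum (𝓞 K))) k ⊔ (powMonoidHom n : Idele K →* Idele K).range
    with hH
  set D := supportedSub S
  set Φ := localProd S χ ψ
  have hΦn : ∀ x, Φ x ^ n = 1 := fun x => by
    rw [localProd_apply, mul_pow, ← Finset.prod_pow, ← Finset.prod_pow,
      Finset.prod_eq_one fun v hv => hχn v hv _, Finset.prod_eq_one fun w _ => hψn w _, one_mul]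
  -- the components kill what is in both
  have hker : ∀ x ∈ D, x ∈ H → Φ x = 1 := by
    intro x hxD hxH
    obtain ⟨y, hy, _, ⟨b, rfl⟩, rfl⟩ := Subgroup.mem_sup.1 hxH
    obtain ⟨_, ⟨a, rfl⟩, u, hu, rfl⟩ := Subgroup.mem_sup.1 hy
    rw [powMonoidHom_apply] at hxD ⊢
    rw [mem_supportedSub] at hxD
    have hcomp : ∀ v ∉ S, localEmb v a * finComp v u * finComp v b ^ n = 1 := fun v hv => by
      rw [← finComp_principal, ← map_pow, ← map_mul, ← map_mul]
      exact hxD v hv
    have hord : ∀ v ∉ S, (n : ℤ) ∣ ord v a := fun v hv => by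
      have hu1 : Valued.v ((finComp v u : (v.adicCompletion K)ˣ) : v.adicCompletion K) = 1 := by
        by_cases hW : v ∈ W
        · exact valued_eq_one_of_nearLocal v (hu.2.1 v (Finset.mem_coe.2 hW))
        · exact hu.1 v (fun h => hW (Finset.mem_coe.1 h))
      have h := congrArg (fun z : (v.adicCompletion K)ˣ => Valued.v (z : v.adicCompletion K))
        (hcomp v hv)
      simp only [Units.val_mul, Units.val_one, Units.val_pow_eq_pow_val, map_mul, map_pow, map_one,
        hu1, mul_one, localEmb_val, valued_algebraMap, valuation_eq_exp] at h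
      set t := Valued.v ((finComp v b : (v.adicCompletion K)ˣ) : v.adicCompletion K) with ht
      have ht0 : t ≠ 0 := (Valuation.ne_zero_iff _).2 (Units.ne_zero _)
      rw [← exp_log ht0, ← exp_nsmul, ← exp_add, ← exp_zero, exp_inj, nsmul_eq_mul] at h
      exact ⟨log t, by linarith⟩
    have hpowT : ∀ v ∈ T,
        ∃ c : v.adicCompletion K, c ^ n = algebraMap K (v.adicCompletion K) (a : K) := fun v hv => by
      have hvS : v ∉ S := Finset.disjoint_left.1 hTS hv
      have hvW : v ∈ W := Finset.mem_union_right _ hv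
      obtain ⟨c, hc⟩ := hkp v _ (nearLocal_anti v ((le_max_left _ _).trans
        (Finset.le_sup (f := fun v => max (kp v) (ks v)) hvW)) (hu.2.1 v (Finset.mem_coe.2 hvW)))
      refine ⟨(((c * finComp v b)⁻¹ : (v.adicCompletion K)ˣ) : v.adicCompletion K), ?_⟩
      rw [← Units.val_pow_eq_pow_val, ← localEmb_val]
      congr 1
      rw [inv_pow, mul_pow, hc, eq_comm]
      exact eq_inv_of_mul_eq_one_left (by rw [← mul_assoc]; exact hcomp v hvS)
    have hall := hT a hord hpowT
    have hΦu : Φ u = 1 := by
      rw [localProd_apply, Finset.prod_eq_one fun v hv => ?_, Finset.prod_eq_one fun w _ => ?_,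
        one_mul]
      · exact hψpos w _ fun hr => hu.2.2 w hr
      · exact MonoidHom.mem_ker.1 (hks v hv (nearLocal_anti v ((le_max_right _ _).trans
          (Finset.le_sup (f := fun v => max (kp v) (ks v)) (Finset.mem_union_left T hv)))
          (hu.2.1 v (Finset.mem_coe.2 (Finset.mem_union_left T hv)))))
    rw [map_mul, map_mul, map_pow, hΦn, hΦu, mul_one, mul_one]
    rcases exists_pow_or_special_of_local hn S.finite_toSet hall with ⟨w, rfl⟩ | ⟨⟨η, hη⟩, hall'⟩
    · rw [map_pow, map_pow, hΦn]
    obtain ⟨hsub, w, hw⟩ := hall' η hη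
    have hw0 : w ≠ 0 := fun h => a.ne_zero (by rw [hw, h, zero_pow hn.ne', mul_zero])
    have hA0 : wangElt n η ≠ 0 := fun h => a.ne_zero (by rw [hw, h, zero_mul])
    set A := Units.mk0 _ hA0
    have haA : a = A * Units.mk0 w hw0 ^ n := Units.ext (by
      rw [Units.val_mul, Units.val_pow_eq_pow_val]
      exact hw)
    rw [haA, map_mul, map_mul, map_pow, map_pow, hΦn, mul_one, localProd_apply]
    obtain ⟨b', hb'⟩ := hη.exists_sq A rfl
    rw [Finset.prod_congr rfl fun v _ => by rw [finComp_principal], hcond η hη hsub A rfl, one_mul]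
    refine Finset.prod_eq_one fun w' _ => ?_
    rw [hb', map_pow, map_pow]
    exact psi_sq hψpos w' _
  -- extend
  have hHopen : IsOpen (H : Set (Idele K)) :=
    Subgroup.isOpen_mono (le_sup_right.trans le_sup_left) (isOpen_levelSub W.finite_toSet k)
  obtain ⟨L, i1, i2, i3, i4, i5, hL⟩ :=
    exists_ker_artinIdele_eq hHopen (le_sup_left.trans le_sup_left)
  haveI : H.FiniteIndex := ⟨by
    rw [← hL, Subgroup.index_ker]
    exact Nat.card_pos.ne'⟩
  haveI : Finite (Idele K ⧸ H) := Subgroup.finite_quotient_of_finiteIndex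
  haveI : NeZero (Monoid.exponent (Idele K ⧸ H)) := ⟨fun h => Nat.card_pos.ne' (Nat.eq_zero_of_zero_dvd (h ▸ Group.exponent_dvd_nat_card (G := Idele K ⧸ H)))⟩
  set q := QuotientGroup.mk' H
  set f := q.subgroupMap D
  have hf : Function.Surjective f := q.subgroupMap_surjective D
  have hfker : f.ker ≤ (Φ.comp D.subtype).ker := fun x hx => hker x x.2
    ((QuotientGroup.eq_one_iff _).1 (congrArg Subtype.val (MonoidHom.mem_ker.1 hx)))
  obtain ⟨F, hF⟩ := MonoidHom.domRestrict_surjective (G := Idele K ⧸ H) (M := ℂ) (D.map q)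
    (f.liftOfSurjective hf ⟨Φ.comp D.subtype, hfker⟩)
  have hΘD : ∀ x ∈ D, F (q x) = Φ x := fun x hx => by
    have h := DFunLike.congr_fun hF (f ⟨x, hx⟩)
    rw [MonoidHom.domRestrictHom_apply, MonoidHom.liftOfRightInverse_comp_apply] at h
    exact h
  refine ⟨F.comp q, Subgroup.isOpen_mono (fun x hx => ?_) hHopen, fun a => ?_, fun x => ?_,
    fun v hv z => ?_, fun w z => ?_⟩
  · rw [MonoidHom.mem_ker, MonoidHom.comp_apply, show q x = 1 from (QuotientGroup.eq_one_iff x).2 hx,
      map_one]
  · rw [MonoidHom.comp_apply, show q (principal a) = 1 from (QuotientGroup.eq_one_iff _).2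
      (Subgroup.mem_sup_left (Subgroup.mem_sup_left ⟨a, rfl⟩)), map_one]
  · rw [← map_pow, MonoidHom.comp_apply, show q (x ^ n) = 1 from (QuotientGroup.eq_one_iff _).2
      (Subgroup.mem_sup_right ⟨x, rfl⟩), map_one]
  · have hmem : single v z ∈ D := (mem_supportedSub S).2 fun u hu =>
      finComp_single_of_ne (fun e : u = v => hu (e ▸ hv)) z
    rw [MonoidHom.comp_apply, hΘD _ hmem, localProd_apply,
      Finset.prod_eq_single_of_mem v hv fun u _ hu => by rw [finComp_single_of_ne hu, map_one],
      finComp_single_self, Finset.prod_eq_one fun w _ => by rw [infComp_single, map_one], mul_one]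
  · have hmem : infSingle w z ∈ D := (mem_supportedSub S).2 fun u _ => finComp_infSingle u w z
    rw [MonoidHom.comp_apply, hΘD _ hmem, localProd_apply,
      Finset.prod_eq_one fun u _ => by rw [finComp_infSingle, map_one], one_mul,
      Finset.prod_eq_single_of_mem w (Finset.mem_univ w) fun u _ hu => by
        rw [infComp_infSingle_of_ne hu, map_one], infComp_infSingle_self]

/-- **The condition is necessary.** -/
theorem prod_eq_one_of_character {G : Type*} [CommGroup G]
    {χ : ∀ v : HeightOneSpectrum (𝓞 K), (v.adicCompletion K)ˣ →* G}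
    {ψ : ∀ w : InfinitePlace K, w.Completionˣ →* G} (hn : 0 < n) {Θ : Idele K →* G}
    (hp : ∀ a, Θ (principal a) = 1) (hΘn : ∀ x, Θ x ^ n = 1)
    (hχ : ∀ v ∈ S, ∀ z, Θ (single v z) = χ v z) (hψ : ∀ w z, Θ (infSingle w z) = ψ w z)
    (hψpos : ∀ w (z : (w : InfinitePlace K).Completionˣ), (∀ hr : IsReal w,
      0 < extensionEmbeddingOfIsReal hr (z : w.Completion)) → ψ w z = 1)
    {η : K} (hη : IsSpecial n η)
    (hsub : {v : HeightOneSpectrum (𝓞 K) | NoSquares (v.adicCompletion K) η} ⊆ S)
    {A : Kˣ} (hA : (A : K) = wangElt n η) : ∏ v ∈ S, χ v (localEmb v A) = 1 := by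
  have hroot : ∀ v : HeightOneSpectrum (𝓞 K), ∃ c : (v.adicCompletion K)ˣ,
      (v ∈ S → c = 1) ∧ (v ∉ S → c ^ n = localEmb v A) := fun v => by
    by_cases hv : v ∈ S
    · exact ⟨1, fun _ => rfl, fun h => absurd hv h⟩
    · obtain ⟨c, hc⟩ := (exists_pow_completion_iff hn.ne' hη v).2 fun h => hv (hsub h)
      have hc0 : c ≠ 0 := fun h => A.ne_zero (by
        rw [h, zero_pow hn.ne', eq_comm, map_eq_zero, ← hA] at hc
        exact hc)
      exact ⟨Units.mk0 c hc0, fun h => absurd h hv, fun _ => Units.ext (by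
        rw [Units.val_pow_eq_pow_val, Units.val_mk0, hc, localEmb_val, hA])⟩
  choose f hf1 hf2 using hroot
  have hfin : {v | Valued.v ((f v : (v.adicCompletion K)ˣ) : v.adicCompletion K) ≠ 1}.Finite := by
    refine (finite_ord_ne_zero A).subset fun v hv h => hv ?_
    by_cases hS : v ∈ S
    · rw [hf1 v hS, Units.val_one, map_one]
    · have h1 := congrArg (fun z : (v.adicCompletion K)ˣ => Valued.v (z : v.adicCompletion K))
        (hf2 v hS)
      simp only [Units.val_pow_eq_pow_val, map_pow, localEmb_val, valued_algebraMap, valuation_eq_exp,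
        h, neg_zero, exp_zero] at h1
      exact (pow_eq_one_iff.1 h1).resolve_right hn.ne'
  have key : principal A = (∏ v ∈ S, single v (localEmb v A)) *
      (∏ w, infSingle w (infComp w (principal A))) * ofFinite f hfin ^ n := by
    refine idele_ext (fun v => ?_) fun w => ?_
    · rw [map_mul, map_mul, map_prod, map_prod, map_pow, finComp_ofFinite,
        Finset.prod_eq_one fun w _ => finComp_infSingle v w _, mul_one, finComp_principal]
      by_cases hv : v ∈ S
      · rw [Finset.prod_eq_single_of_mem v hv fun u _ hu => finComp_single_of_ne hu.symm _,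
          finComp_single_self, hf1 v hv, one_pow, mul_one]
      · rw [Finset.prod_eq_one fun u hu => finComp_single_of_ne (fun e : v = u => hv (e ▸ hu)) _,
          one_mul, hf2 v hv]
    · rw [map_mul, map_mul, map_prod, map_prod, map_pow, infComp_ofFinite, one_pow, mul_one,
        Finset.prod_eq_one fun v _ => infComp_single w v _, one_mul,
        Finset.prod_eq_single_of_mem w (Finset.mem_univ w) fun u _ hu =>
          infComp_infSingle_of_ne hu.symm _, infComp_infSingle_self]
  have h := hp A
  obtain ⟨b, hb⟩ := hη.exists_sq A hA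
  rw [key, map_mul, map_mul, map_pow, hΘn, mul_one, map_prod, map_prod,
    Finset.prod_congr rfl fun v hv => hχ v hv _, Finset.prod_congr rfl fun w _ => hψ w _,
    Finset.prod_eq_one (f := fun w : InfinitePlace K => ψ w _) fun w _ => by
      rw [hb, map_pow, map_pow]
      exact psi_sq hψpos w _, mul_one] at h
  exact h

end FA.GrunwaldWang

end
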