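import Fermat.Agent.GrunwaldWang.Local
import Mathlib.RingTheory.RootsOfUnity.Complex

/-!
# Classes modulo powers with prescribed divisibility

The elements with valuation divisible by `n` outside a finite set have finitely many classes modulo
`n`-th powers, so finitely many primes detect which of them are `n`-th powers at all primes outside
the set.
-/

set_option autoImplicit false
set_option linter.unusedSectionVars false
set_option linter.style.haveILetI false

noncomputable section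

open NumberField IsDedekindDomain
open FA.ArtinRec
open scoped Classical

namespace FA.GrunwaldWang

universe u

variable {K : Type u} [Field K] [NumberField K]

/-- The units outside a finite set are finitely generated. -/
theorem fg_tUnit (T : Finset (HeightOneSpectrum (𝓞 K))) : (tUnit T).FG := by
  induction T using Finset.induction with
  | empty =>
    haveI : Group.FG (𝓞 K)ˣ := Group.fg_iff_monoid_fg.2 inferInstance
    have e : tUnit (∅ : Finset (HeightOneSpectrum (𝓞 K))) = (intUnits (F := K)).range := by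
      refine le_antisymm (fun x hx => exists_intUnits_eq fun v => hx v (Finset.notMem_empty v)) ?_
      rintro _ ⟨u, rfl⟩ v -
      exact ord_intUnits u v
    rw [e, ← Group.fg_iff_subgroup_fg]
    exact Group.fg_range _
  | @insert v T hv ih =>
    let O : AddSubgroup ℤ :=
      { carrier := {i | ∃ x ∈ tUnit (insert v T), ord v x = i}
        zero_mem' := ⟨1, one_mem _, ord_one v⟩
        add_mem' := fun {i j} ⟨x, hx, hxi⟩ ⟨y, hy, hyj⟩ =>
          ⟨x * y, mul_mem hx hy, by rw [ord_mul, hxi, hyj]⟩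
        neg_mem' := fun {i} ⟨x, hx, hxi⟩ => ⟨x⁻¹, inv_mem hx, by rw [ord_inv, hxi]⟩ }
    obtain ⟨d, hd⟩ := Int.subgroup_cyclic O
    obtain ⟨η, hη, hηd⟩ : ∃ η ∈ tUnit (insert v T), ord v η = d := by
      show d ∈ O
      rw [hd]
      exact AddSubgroup.subset_closure rfl
    have e : tUnit (insert v T) = tUnit T ⊔ Subgroup.zpowers η := by
      refine le_antisymm (fun x hx => ?_) (sup_le (fun x hx w hw => hx w fun h =>
        hw (Finset.mem_insert_of_mem h)) (Subgroup.zpowers_le.2 hη))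
      obtain ⟨i, hi⟩ : ∃ i : ℤ, i * d = ord v x := by
        have h : ord v x ∈ AddSubgroup.closure ({d} : Set ℤ) := hd ▸ ⟨x, hx, rfl⟩
        obtain ⟨i, hi⟩ := AddSubgroup.mem_closure_singleton.1 h
        exact ⟨i, by rwa [smul_eq_mul] at hi⟩
      refine Subgroup.mem_sup.2 ⟨x / η ^ i, fun w hw => ?_, _, Subgroup.zpow_mem_zpowers η i,
        div_mul_cancel _ _⟩
      rw [ord_div, ord_zpow]
      by_cases hwv : w = v
      · rw [hwv, hηd, hi, sub_self]
      · rw [hx w (by simp [hwv, hw]), hη w (by simp [hwv, hw]), mul_zero, sub_zero]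
    rw [e]
    exact ih.sup ⟨{η}, by rw [Finset.coe_singleton, Subgroup.zpowers_eq_closure]⟩

/-- **Finitely many classes.** -/
theorem exists_classes (S : Finset (HeightOneSpectrum (𝓞 K))) {n : ℕ} (hn : 0 < n) :
    ∃ R : Finset Kˣ, ∀ a : Kˣ, (∀ v ∉ S, (n : ℤ) ∣ ord v a) → ∃ r ∈ R, ∃ w : Kˣ, a = r * w ^ n := by
  obtain ⟨C, hC⟩ := exists_isClassSet (K := K)
  set T := S ∪ C
  haveI : Group.FG (tUnit T) := (Group.fg_iff_subgroup_fg _).2 (fg_tUnit T)
  set P : Subgroup (tUnit T) := (powMonoidHom n : tUnit T →* tUnit T).range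
  haveI : Group.FG (tUnit T ⧸ P) := QuotientGroup.fg P
  haveI : Finite (tUnit T ⧸ P) := CommGroup.finite_of_fg_isMulTorsion _ (by
    rintro ⟨x⟩
    exact isOfFinOrder_iff_pow_eq_one.2 ⟨n, hn, (QuotientGroup.eq_one_iff _).2 ⟨x, rfl⟩⟩)
  haveI := Fintype.ofFinite (tUnit T ⧸ P)
  refine ⟨Finset.univ.image fun q : tUnit T ⧸ P => ((q.out : tUnit T) : Kˣ), fun a ha => ?_⟩
  have hk : {w | w ∉ T ∧ ord w a / (n : ℤ) ≠ 0}.Finite :=
    (finite_ord_ne_zero a).subset fun w hw h => hw.2 (by rw [h, Int.zero_ediv])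
  obtain ⟨b, hb⟩ := (hC.mono Finset.subset_union_right).exists_ord _ hk
  have hu : a / b ^ n ∈ tUnit T := fun w hw => by
    rw [ord_div, ord_pow, hb w hw,
      Int.mul_ediv_cancel' (ha w fun h => hw (Finset.mem_union_left _ h)), sub_self]
  set q : tUnit T ⧸ P := QuotientGroup.mk ⟨a / b ^ n, hu⟩
  refine ⟨_, Finset.mem_image_of_mem _ (Finset.mem_univ q), ?_⟩
  obtain ⟨d, hd⟩ : (q.out : tUnit T)⁻¹ * ⟨a / b ^ n, hu⟩ ∈ P :=
    QuotientGroup.eq.1 (QuotientGroup.out_eq' q)
  refine ⟨(d : Kˣ) * b, ?_⟩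
  have h2 := congrArg (Subgroup.subtype (tUnit T)) hd
  simp only [powMonoidHom_apply, map_pow, map_mul, map_inv, Subgroup.coe_subtype] at h2
  rw [mul_pow, h2, ← mul_assoc, mul_inv_cancel_left, div_mul_cancel]

/-- **Finitely many primes detect powers outside a finite set.** -/
theorem exists_detecting_primes (S : Finset (HeightOneSpectrum (𝓞 K))) {n : ℕ} (hn : 0 < n) :
    ∃ T : Finset (HeightOneSpectrum (𝓞 K)), Disjoint T S ∧ ∀ a : Kˣ,
      (∀ v ∉ S, (n : ℤ) ∣ ord v a) →
      (∀ v ∈ T, ∃ c : v.adicCompletion K, c ^ n = algebraMap K (v.adicCompletion K) (a : K)) →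
      ∀ v ∉ S, ∃ c : v.adicCompletion K, c ^ n = algebraMap K (v.adicCompletion K) (a : K) := by
  obtain ⟨R, hR⟩ := exists_classes S hn
  let P : Kˣ → HeightOneSpectrum (𝓞 K) → Prop := fun a v =>
    ∃ c : v.adicCompletion K, c ^ n = algebraMap K (v.adicCompletion K) (a : K)
  have hstep : ∀ a r w : Kˣ, a = r * w ^ n → ∀ v, P r v → P a v := fun a r w h v ⟨c, hc⟩ =>
    ⟨c * algebraMap K _ (w : K), by
      rw [h, mul_pow, hc, Units.val_mul, Units.val_pow_eq_pow_val, map_mul, map_pow]⟩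
  have hex : ∀ r : {r // r ∈ R}, ∃ T : Finset (HeightOneSpectrum (𝓞 K)), Disjoint T S ∧
      ((∀ v ∈ T, P r.1 v) → ∀ v ∉ S, P r.1 v) := fun r => by
    by_cases h : ∀ v ∉ S, P r.1 v
    · exact ⟨∅, Finset.disjoint_empty_left S, fun _ => h⟩
    · simp only [not_forall, exists_prop] at h
      obtain ⟨v, hv, hP⟩ := h
      exact ⟨{v}, Finset.disjoint_singleton_left.2 hv, fun h => absurd (h v (by simp)) hP⟩
  choose f hf using hex
  refine ⟨Finset.univ.biUnion f, (Finset.disjoint_biUnion_left _ _ _).2 fun r _ => (hf r).1,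
    fun a ha hT v hv => ?_⟩
  obtain ⟨r, hr, w, hw⟩ := hR a ha
  refine hstep a r w hw v ((hf ⟨r, hr⟩).2 (fun u hu => ?_) v hv)
  exact hstep r a w⁻¹ (by rw [hw, inv_pow, mul_inv_cancel_right]) u
    (hT u (Finset.mem_biUnion.2 ⟨_, Finset.mem_univ _, hu⟩))

end FA.GrunwaldWang

end
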