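import Fermat.Agent.GrunwaldWang.Local
import Mathlib.NumberTheory.Padics.HeightOneSpectrum
import Mathlib.NumberTheory.Padics.RingHoms

/-!
# The special case over the rationals

Over `ℚ` the special element is `2 ^ (n / 2)` (for `n = 8` the number `16`), and `2` is the one prime
where it is not an `n`-th power.
-/

set_option autoImplicit false
set_option linter.unusedSectionVars false
set_option linter.style.haveILetI false

noncomputable section

open NumberField IsDedekindDomain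

namespace FA.GrunwaldWang

/-- `-1`, `2`, `-2` are no squares of `2`-adic numbers. -/
theorem not_isSquare_padic_two {p : ℕ} [hp : Fact p.Prime] (h2 : p = 2) :
    ¬ IsSquare (-1 : ℚ_[p]) ∧ ¬ IsSquare (2 : ℚ_[p]) ∧ ¬ IsSquare (-2 : ℚ_[p]) := by
  subst h2
  have hnorm : ‖(2 : ℚ_[2])‖ = 2⁻¹ := by
    have h := Padic.norm_p (p := 2)
    norm_num at h ⊢
    exact h
  have hodd : ∀ x : ℚ_[2], x * x ≠ 2 ∧ x * x ≠ -2 := fun x => by
    have key : ‖x‖ * ‖x‖ ≠ (2⁻¹ : ℝ) := fun h => by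
      rcases eq_or_ne x 0 with rfl | hx
      · simp at h
      · rw [Padic.norm_eq_zpow_neg_valuation hx, ← zpow_add₀ (by norm_num), ← zpow_neg_one] at h
        push_cast at h
        have := zpow_right_injective₀ (by norm_num : (0 : ℝ) < 2) (by norm_num) h
        omega
    exact ⟨fun h => key (by rw [← norm_mul, h, hnorm]),
      fun h => key (by rw [← norm_mul, h, norm_neg, hnorm])⟩
  refine ⟨fun ⟨x, hx⟩ => ?_, fun ⟨x, hx⟩ => (hodd x).1 hx.symm, fun ⟨x, hx⟩ => (hodd x).2 hx.symm⟩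
  have hx1 : ‖x‖ ≤ 1 := by
    have h := congrArg norm hx
    rw [norm_neg, norm_one, norm_mul] at h
    nlinarith [norm_nonneg x]
  let y : ℤ_[2] := ⟨x, hx1⟩
  have h : y * y = -1 := Subtype.ext (by
    rw [PadicInt.coe_mul, PadicInt.coe_neg, PadicInt.coe_one]
    exact hx.symm)
  have h4 := congrArg (PadicInt.toZModPow (p := 2) 2) h
  rw [map_mul, map_neg, map_one] at h4
  exact absurd h4 ((by decide : ∀ y : ZMod (2 ^ 2), y * y ≠ -1) _)

/-- A completion of `ℚ` as the field of `p`-adic numbers. -/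
def padicHom (v : HeightOneSpectrum (𝓞 ℚ)) :
    v.adicCompletion ℚ →+* ℚ_[Rat.HeightOneSpectrum.primesEquiv v] :=
  (Rat.HeightOneSpectrum.adicCompletion.padicEquiv v).toAlgEquiv.toRingEquiv.toRingHom

section

/- The completion keeps its own structure of an algebra over `ℚ`. -/
attribute [-instance] DivisionRing.toRatAlgebra

/-- **At `2` none of the three is a square.** -/
theorem noSquares_rat_two {v : HeightOneSpectrum (𝓞 ℚ)} (hv : (2 : 𝓞 ℚ) ∈ v.asIdeal) :
    NoSquares (v.adicCompletion ℚ) (0 : ℚ) := by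
  let e := padicHom v
  have hp : ((Rat.HeightOneSpectrum.primesEquiv v : Nat.Primes) : ℕ) = 2 := by
    refine (Nat.prime_dvd_prime_iff_eq (Rat.HeightOneSpectrum.primesEquiv v).2 Nat.prime_two).1 ?_
    show Rat.HeightOneSpectrum.natGenerator v ∣ 2
    rw [Rat.HeightOneSpectrum.natGenerator_dvd_iff, Nat.cast_ofNat,
      ← map_ofNat (Rat.IsIntegralClosure.intEquiv (𝓞 ℚ)) 2]
    exact Ideal.mem_map_of_mem _ hv
  obtain ⟨h1, h2, h3⟩ := not_isSquare_padic_two hp
  refine ⟨fun h => h1 ?_, fun h => h2 ?_, fun h => h3 ?_⟩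
  · simpa only [map_neg, map_one] using h.map e
  · simpa only [add_zero, map_ofNat] using h.map e
  · simpa only [add_zero, map_ofNat, map_neg] using h.map e

theorem noSquares_rat_iff (v : HeightOneSpectrum (𝓞 ℚ)) :
    NoSquares (v.adicCompletion ℚ) (0 : ℚ) ↔ (2 : 𝓞 ℚ) ∈ v.asIdeal := by
  refine ⟨fun h => ?_, noSquares_rat_two⟩
  obtain ⟨⟨s, hs, -⟩, -⟩ := isSpecial_rat (dvd_refl 8)
  exact NoSquares.two_mem hs h

theorem wangElt_rat (n : ℕ) : wangElt n (0 : ℚ) = 2 ^ (n / 2) := by rw [wangElt, add_zero]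

/-- **The theorem over `ℚ`.** -/
theorem exists_pow_or_rat {n : ℕ} (hn : 0 < n) {S : Set (HeightOneSpectrum (𝓞 ℚ))} (hS : S.Finite)
    {x : ℚˣ}
    (h : ∀ v ∉ S, ∃ c : v.adicCompletion ℚ, c ^ n = algebraMap ℚ (v.adicCompletion ℚ) (x : ℚ)) :
    (∃ w : ℚˣ, w ^ n = x) ∨
      (8 ∣ n ∧ (∀ v : HeightOneSpectrum (𝓞 ℚ), (2 : 𝓞 ℚ) ∈ v.asIdeal → v ∈ S) ∧
        ∃ w : ℚ, (x : ℚ) = 2 ^ (n / 2) * w ^ n) := by
  rcases exists_pow_or_special_of_local (x := x) hn hS h with hp | ⟨⟨η, hη⟩, hall⟩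
  · exact Or.inl hp
  obtain ⟨hsub, w, hw⟩ := hall 0 (isSpecial_rat hη.eight_dvd)
  exact Or.inr ⟨hη.eight_dvd, fun v hv => hsub ((noSquares_rat_iff v).2 hv), w,
    by rwa [wangElt_rat] at hw⟩

end

end FA.GrunwaldWang

end
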