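import Fermat.Agent.GrunwaldWang.Cyclic
import Fermat.Agent.GrunwaldWang.Rational

/-!
# Wang's counterexample

For an abelian extension of `ℚ` of exponent dividing `8` the number `16` is a local norm at `2`, so
the unramified extension of degree `8` of the completion at `2` is the completion of none.
-/

set_option autoImplicit false
set_option linter.unusedSectionVars false
set_option linter.style.haveILetI false

noncomputable section

open NumberField NumberField.InfinitePlace NumberField.InfinitePlace.Completion IsDedekindDomain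
open WithZero IsMulCommutative
open FA.ArtinRec FA.Ideles FA.LocalCFT FA.NormResidue
open FA.QuadFormsNF (valued_algebraMap)
open scoped Pointwise Classical

namespace FA.GrunwaldWang

universe u

/-- **The product formula at the special element.** -/
theorem prod_localArtin_wangElt {K : Type u} [Field K] [NumberField K] (L : Type*) [Field L]
    [NumberField L] [Algebra K L] [IsGalois K L] [IsMulCommutative (L ≃ₐ[K] L)] {n : ℕ}
    (hn : 0 < n) (hexp : ∀ g : L ≃ₐ[K] L, g ^ n = 1) {η : K} (hη : IsSpecial n η)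
    {S : Finset (HeightOneSpectrum (𝓞 K))}
    (hsub : {v : HeightOneSpectrum (𝓞 K) | NoSquares (v.adicCompletion K) η} ⊆ S) {A : Kˣ}
    (hA : (A : K) = wangElt n η) : ∏ v ∈ S, localArtin L v (localEmb v A) = 1 := by
  refine prod_eq_one_of_character (χ := fun v => localArtin L v)
    (ψ := fun w => (artinIdele L).comp (infSingle w)) hn (Θ := artinIdele L) artinIdele_principal
    (fun x => hexp _) (fun v _ z => artinIdele_single v z) (fun _ _ => rfl)
    (fun w z hz => MonoidHom.mem_ker.1 (infSingle_mem isOpen_ker_artinIdele w z hz)) hη hsub hA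

/-- A completion of an abelian extension that is `E` over the completion below has the norm group of
`E` as the kernel of the local symbol. -/
theorem ker_localArtin_of_equiv {K : Type u} [Field K] [NumberField K] (L : Type u) [Field L]
    [NumberField L] [Algebra K L] [IsGalois K L] [IsMulCommutative (L ≃ₐ[K] L)]
    {v : HeightOneSpectrum (𝓞 K)} (E : Type u) [Field E] [Algebra (v.adicCompletion K) E]
    (Q : HeightOneSpectrum (𝓞 L)) (hQ : belowP K Q = v) (e : Q.adicCompletion L ≃+* E)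
    (he : ∀ t : (belowP K Q).adicCompletion K,
      e (algebraMap ((belowP K Q).adicCompletion K) (Q.adicCompletion L) t) =
        algebraMap (v.adicCompletion K) E (hQ ▸ t)) :
    (localArtin L v).ker = normGroup (v.adicCompletion K) E := by
  subst hQ
  rw [← range_normC (K := K) Q]
  exact normGroup_congr (AlgEquiv.ofRingEquiv (f := e) he)

section

/- The completions keep their own structure of algebras over `ℚ`. -/
attribute [-instance] DivisionRing.toRatAlgebra

theorem primesEquiv_eq_two {v : HeightOneSpectrum (𝓞 ℚ)} (hv : (2 : 𝓞 ℚ) ∈ v.asIdeal) :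
    Rat.HeightOneSpectrum.natGenerator v = 2 := by
  refine (Nat.prime_dvd_prime_iff_eq (Rat.HeightOneSpectrum.prime_natGenerator v) Nat.prime_two).1 ?_
  rw [Rat.HeightOneSpectrum.natGenerator_dvd_iff, Nat.cast_ofNat,
    ← map_ofNat (Rat.IsIntegralClosure.intEquiv (𝓞 ℚ)) 2]
  exact Ideal.mem_map_of_mem _ hv

theorem asIdeal_eq_span_two {v : HeightOneSpectrum (𝓞 ℚ)} (hv : (2 : 𝓞 ℚ) ∈ v.asIdeal) :
    v.asIdeal = Ideal.span {(2 : 𝓞 ℚ)} := by
  set e := Rat.IsIntegralClosure.intEquiv (𝓞 ℚ)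
  have h := Rat.HeightOneSpectrum.span_natGenerator v
  rw [primesEquiv_eq_two hv, Nat.cast_ofNat] at h
  rw [← Ideal.comap_map_of_bijective e e.bijective (I := v.asIdeal), ← h, ← map_ofNat e 2,
    ← Set.image_singleton, ← Ideal.map_span, Ideal.comap_map_of_bijective e e.bijective]

/-- There is exactly one prime over `2`. -/
theorem exists_unique_two :
    ∃ v : HeightOneSpectrum (𝓞 ℚ), (2 : 𝓞 ℚ) ∈ v.asIdeal ∧
      ∀ u : HeightOneSpectrum (𝓞 ℚ), (2 : 𝓞 ℚ) ∈ u.asIdeal → u = v := by
  obtain ⟨M, hM, hle⟩ := Ideal.exists_le_maximal (Ideal.span {(2 : 𝓞 ℚ)}) fun h => by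
    rw [Ideal.span_singleton_eq_top] at h
    have := (h.map (Rat.IsIntegralClosure.intEquiv (𝓞 ℚ))).map (RingHom.id ℤ)
    rw [map_ofNat, RingHom.id_apply, Int.isUnit_iff] at this
    omega
  have h2 : (2 : 𝓞 ℚ) ∈ M := hle (Ideal.subset_span rfl)
  have hM0 : M ≠ ⊥ := fun h => by
    rw [h, Ideal.mem_bot] at h2
    exact two_ne_zero h2
  exact ⟨⟨M, hM.isPrime, hM0⟩, h2, fun u hu => HeightOneSpectrum.ext
    ((asIdeal_eq_span_two hu).trans (asIdeal_eq_span_two (v := ⟨M, hM.isPrime, hM0⟩) h2).symm)⟩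

/-- **`16` is a norm at `2`.** -/
theorem localArtin_sixteen (L : Type*) [Field L] [NumberField L] [Algebra ℚ L] [IsGalois ℚ L]
    [IsMulCommutative (L ≃ₐ[ℚ] L)] (hexp : ∀ g : L ≃ₐ[ℚ] L, g ^ 8 = 1)
    {v : HeightOneSpectrum (𝓞 ℚ)} (hv : (2 : 𝓞 ℚ) ∈ v.asIdeal) {A : ℚˣ} (hA : (A : ℚ) = 16) :
    localArtin L v (localEmb v A) = 1 := by
  obtain ⟨v', hv', huniq⟩ := exists_unique_two
  obtain rfl := huniq v hv
  have h := prod_localArtin_wangElt L (n := 8) (by norm_num) hexp (isSpecial_rat (dvd_refl 8))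
    (S := {v}) (A := A) (fun u hu => Finset.mem_coe.2 (Finset.mem_singleton.2
      (huniq u ((noSquares_rat_iff u).1 hu)))) (by rw [hA, wangElt_rat]; norm_num)
  rwa [Finset.prod_singleton] at h

/-- **Wang's counterexample.** -/
theorem exists_octic_not_completion :
    ∃ (v : HeightOneSpectrum (𝓞 ℚ)) (E : Type) (_ : Field E) (_ : Algebra (v.adicCompletion ℚ) E)
      (_ : FiniteDimensional (v.adicCompletion ℚ) E) (_ : IsGalois (v.adicCompletion ℚ) E),
      (2 : 𝓞 ℚ) ∈ v.asIdeal ∧ IsCyclic (E ≃ₐ[v.adicCompletion ℚ] E) ∧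
      Module.finrank (v.adicCompletion ℚ) E = 8 ∧
      (∀ z : v.adicCompletion ℚ, Valued.v z = 1 →
        ∃ y : E, Algebra.norm (v.adicCompletion ℚ) y = z) ∧
      ∀ (L : Type) [Field L] [NumberField L] [Algebra ℚ L] [IsGalois ℚ L]
        [IsMulCommutative (L ≃ₐ[ℚ] L)], (∀ g : L ≃ₐ[ℚ] L, g ^ 8 = 1) →
        ∀ (Q : HeightOneSpectrum (𝓞 L)) (hQ : belowP ℚ Q = v),
          ¬ ∃ e : Q.adicCompletion L ≃+* E, ∀ t : (belowP ℚ Q).adicCompletion ℚ,
            e (algebraMap ((belowP ℚ Q).adicCompletion ℚ) (Q.adicCompletion L) t) =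
              algebraMap (v.adicCompletion ℚ) E (hQ ▸ t) := by
  obtain ⟨v, hv, -⟩ := exists_unique_two
  obtain ⟨ζ, hζ⟩ := HasEnoughRootsOfUnity.exists_primitiveRoot ℂ 8
  set ζu := (hζ.isUnit (by norm_num)).unit
  have hζu : IsPrimitiveRoot ζu 8 := IsPrimitiveRoot.coe_units_iff.1 (by simpa [ζu] using hζ)
  set χ := unramChar v ζu
  have hrange : χ.range = Subgroup.zpowers ζu := by
    refine le_antisymm ?_ (Subgroup.zpowers_le.2 ⟨(localEmb v (unif v))⁻¹, ?_⟩)
    · rintro _ ⟨z, rfl⟩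
      exact Subgroup.zpow_mem_zpowers _ _
    · rw [map_inv, unramChar_apply, valued_localEmb_unif, log_exp, zpow_neg_one, inv_inv]
  have hidx : χ.ker.index = 8 := by
    rw [Subgroup.index_ker, hrange, Nat.card_zpowers, hζu.eq_orderOf]
  obtain ⟨L₀, j1, j2, j3, j4, j5, hker⟩ := exists_ker_localArtin_eq v (isOpen_ker_unramChar v ζu)
    (by rw [show (unramChar v ζu).ker.index = 8 from hidx]; norm_num)
  obtain ⟨Q₀, hQ₀⟩ := exists_belowP ℚ L₀ v
  subst hQ₀
  haveI := isMulCommutative_completion (K := ℚ) Q₀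
  have hN : normGroup ((belowP ℚ Q₀).adicCompletion ℚ) (Q₀.adicCompletion L₀) = χ.ker :=
    (range_normC Q₀).trans hker
  have hcyc : IsCyclic (Q₀.adicCompletion L₀ ≃ₐ[(belowP ℚ Q₀).adicCompletion ℚ]
      Q₀.adicCompletion L₀) := by
    obtain ⟨-, ⟨i⟩, -⟩ := abelian_facts (belowP ℚ Q₀) (Q₀.adicCompletion L₀)
    haveI : IsCyclic χ.range := by
      rw [hrange]
      infer_instance
    let e := (i.symm.trans (QuotientGroup.quotientMulEquivOfEq hN)).trans
      (QuotientGroup.quotientKerEquivRange χ)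
    exact isCyclic_of_injective e.toMonoidHom e.injective
  have hfin : Module.finrank ((belowP ℚ Q₀).adicCompletion ℚ) (Q₀.adicCompletion L₀) = 8 := by
    obtain ⟨-, ⟨i⟩, -⟩ := abelian_facts (belowP ℚ Q₀) (Q₀.adicCompletion L₀)
    rw [← IsGalois.card_aut_eq_finrank, ← Nat.card_congr i.toEquiv, ← Subgroup.index_eq_card, hN,
      hidx]
  refine ⟨belowP ℚ Q₀, Q₀.adicCompletion L₀, inferInstance, inferInstance, inferInstance,
    inferInstance, hv, hcyc, hfin, fun z hz => ?_, ?_⟩
  · have hz0 : z ≠ 0 := fun h => by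
      rw [h, map_zero] at hz
      exact zero_ne_one hz
    have hmem : Units.mk0 z hz0 ∈ χ.ker := by
      rw [MonoidHom.mem_ker, unramChar_apply, Units.val_mk0, hz, log_one, zpow_zero]
    rw [← hN] at hmem
    obtain ⟨y, hy⟩ := hmem
    exact ⟨(y : Q₀.adicCompletion L₀), congrArg Units.val hy⟩
  · intro L _ _ _ _ _ hexp Q hQ ⟨e, he⟩
    set A : ℚˣ := Units.mk0 (16 : ℚ) (by norm_num)
    have h16 : localArtin L (belowP ℚ Q₀) (localEmb (belowP ℚ Q₀) A) = 1 :=
      localArtin_sixteen L hexp hv rfl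
    have heq : (localArtin L (belowP ℚ Q₀)).ker = χ.ker :=
      (ker_localArtin_of_equiv L (Q₀.adicCompletion L₀) Q hQ e he).trans hN
    rw [← MonoidHom.mem_ker, heq, MonoidHom.mem_ker, unramChar_apply, localEmb_val,
      valued_algebraMap, Units.val_mk0, show (16 : ℚ) = ((2 : 𝓞 ℚ) : ℚ) ^ 4 by
        rw [show ((2 : 𝓞 ℚ) : ℚ) = 2 from map_ofNat _ 2]; norm_num, map_pow,
      HeightOneSpectrum.valuation_of_algebraMap,
      HeightOneSpectrum.intValuation_singleton _ two_ne_zero (asIdeal_eq_span_two hv), ← exp_nsmul,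
      log_exp] at h16
    have h := (hζu.zpow_eq_one_iff_dvd _).1 h16
    norm_num at h

end

end FA.GrunwaldWang

end
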