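import Fermat.Agent.GrunwaldWang.Characters
import Fermat.Agent.LocalCFT.Abelian

/-!
# Cyclic extensions with prescribed completions

A character of the ideles is the character of a cyclic extension.  So outside the special case cyclic
extensions of the completions at finitely many primes, of degrees dividing `n`, are completions of one
cyclic extension of degree `n`.
-/

set_option autoImplicit false
set_option linter.unusedSectionVars false
set_option linter.style.haveILetI false

noncomputable section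

open NumberField NumberField.InfinitePlace IsDedekindDomain WithZero IsMulCommutative
open FA.ArtinRec FA.Ideles FA.LocalCFT FA.NormResidue
open scoped Pointwise Classical

namespace FA.GrunwaldWang

universe u

variable {K : Type u} [Field K] [NumberField K]

/-- **The cyclic extension of a character.** -/
theorem exists_cyclic_of_character {n : ℕ} (hn : 0 < n) {Θ : Idele K →* ℂˣ}
    (hopen : IsOpen (Θ.ker : Set (Idele K))) (hp : ∀ a, Θ (principal a) = 1)
    (hΘn : ∀ x, Θ x ^ n = 1) :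
    ∃ (L : Type u) (_ : Field L) (_ : NumberField L) (_ : Algebra K L) (_ : IsGalois K L)
      (_ : IsMulCommutative (L ≃ₐ[K] L)), IsCyclic (L ≃ₐ[K] L) ∧ Module.finrank K L ∣ n ∧
      (artinIdele L).ker = Θ.ker ∧
      ((∃ x, orderOf (Θ x) = n) → Module.finrank K L = n) := by
  obtain ⟨L, i1, i2, i3, i4, i5, hL⟩ := exists_ker_artinIdele_eq hopen (by
    rintro _ ⟨a, rfl⟩
    exact MonoidHom.mem_ker.2 (hp a))
  haveI : NeZero n := ⟨hn.ne'⟩
  have hle : Θ.range ≤ rootsOfUnity n ℂ := by
    rintro _ ⟨x, rfl⟩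
    exact (mem_rootsOfUnity n _).2 (hΘn x)
  haveI : IsCyclic Θ.range :=
    isCyclic_of_injective (Subgroup.inclusion hle) (Subgroup.inclusion_injective hle)
  let e : (L ≃ₐ[K] L) ≃* Θ.range :=
    ((QuotientGroup.quotientKerEquivOfSurjective _ artinIdele_surjective).symm.trans
      (QuotientGroup.quotientMulEquivOfEq hL)).trans (QuotientGroup.quotientKerEquivRange Θ)
  have hcard : Module.finrank K L = Nat.card Θ.range := by
    rw [← IsGalois.card_aut_eq_finrank, Nat.card_congr e.toEquiv]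
  have hdvd : Module.finrank K L ∣ n := by
    rw [hcard, ← HasEnoughRootsOfUnity.natCard_rootsOfUnity ℂ n]
    exact Subgroup.card_dvd_of_le hle
  refine ⟨L, i1, i2, i3, i4, i5, isCyclic_of_injective e.toMonoidHom e.injective, hdvd, hL,
    fun ⟨x, hx⟩ => Nat.dvd_antisymm hdvd ?_⟩
  rw [hcard, ← hx]
  exact (Subgroup.orderOf_coe (⟨Θ x, x, rfl⟩ : Θ.range)) ▸ orderOf_dvd_natCard _

theorem log_valued_mul (v : HeightOneSpectrum (𝓞 K)) (a b : (v.adicCompletion K)ˣ) :
    log (Valued.v ((a * b : (v.adicCompletion K)ˣ) : v.adicCompletion K)) =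
      log (Valued.v (a : v.adicCompletion K)) + log (Valued.v (b : v.adicCompletion K)) := by
  rw [Units.val_mul, map_mul, log_mul ((Valuation.ne_zero_iff _).2 a.ne_zero)
    ((Valuation.ne_zero_iff _).2 b.ne_zero)]

/-- The unramified character with a given value. -/
def unramChar (v : HeightOneSpectrum (𝓞 K)) (ζ : ℂˣ) : (v.adicCompletion K)ˣ →* ℂˣ :=
  MonoidHom.mk' (fun z => ζ ^ log (Valued.v (z : v.adicCompletion K))) fun a b => by
    rw [log_valued_mul, zpow_add]

theorem unramChar_apply (v : HeightOneSpectrum (𝓞 K)) (ζ : ℂˣ) (z : (v.adicCompletion K)ˣ) :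
    unramChar v ζ z = ζ ^ log (Valued.v (z : v.adicCompletion K)) := rfl

theorem isOpen_ker_unramChar (v : HeightOneSpectrum (𝓞 K)) (ζ : ℂˣ) :
    IsOpen ((unramChar v ζ).ker : Set (v.adicCompletion K)ˣ) :=
  Subgroup.isOpen_mono (H₁ := nearLocal v 0) (fun z hz => by
      rw [MonoidHom.mem_ker, unramChar_apply, valued_eq_one_of_nearLocal v hz, log_one, zpow_zero])
    (show IsOpen (Units.val ⁻¹' {z : v.adicCompletion K |
      Valued.v (z - 1) ≤ exp (-((0 + 1 : ℕ) : ℤ))}) from
      (isOpen_near v _).preimage Units.continuous_val)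

/-- **Grunwald's theorem.** -/
theorem exists_cyclic_prescribed {n : ℕ} (hn : 0 < n) (S : Finset (HeightOneSpectrum (𝓞 K)))
    (hspecial : ¬ ∃ η : K, IsSpecial n η ∧
      {v : HeightOneSpectrum (𝓞 K) | NoSquares (v.adicCompletion K) η} ⊆ S)
    (E : HeightOneSpectrum (𝓞 K) → Type*) [∀ v, Field (E v)]
    [∀ v, Algebra (v.adicCompletion K) (E v)] [∀ v, FiniteDimensional (v.adicCompletion K) (E v)]
    [∀ v, IsGalois (v.adicCompletion K) (E v)]
    (hcyc : ∀ v ∈ S, IsCyclic (E v ≃ₐ[v.adicCompletion K] E v))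
    (hdeg : ∀ v ∈ S, Module.finrank (v.adicCompletion K) (E v) ∣ n) :
    ∃ (L : Type u) (_ : Field L) (_ : NumberField L) (_ : Algebra K L) (_ : IsGalois K L)
      (_ : IsMulCommutative (L ≃ₐ[K] L)), IsCyclic (L ≃ₐ[K] L) ∧ Module.finrank K L = n ∧
      ∀ v ∈ S, ∀ (Q : HeightOneSpectrum (𝓞 L)) (hQ : belowP K Q = v),
        ∃ e : Q.adicCompletion L ≃+* E v, ∀ t : (belowP K Q).adicCompletion K,
          e (algebraMap ((belowP K Q).adicCompletion K) (Q.adicCompletion L) t) =
            algebraMap (v.adicCompletion K) (E v) (hQ ▸ t) := by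
  haveI : NeZero n := ⟨hn.ne'⟩
  -- local characters
  have hloc : ∀ v, ∃ φ : (v.adicCompletion K)ˣ →* ℂˣ, v ∈ S →
      IsOpen (φ.ker : Set (v.adicCompletion K)ˣ) ∧ (∀ z, φ z ^ n = 1) ∧
        φ.ker = normGroup (v.adicCompletion K) (E v) := fun v => by
    by_cases hv : v ∈ S
    · haveI := hcyc v hv
      haveI : IsMulCommutative (E v ≃ₐ[v.adicCompletion K] E v) :=
        ⟨⟨IsCyclic.commGroup.mul_comm⟩⟩
      obtain ⟨-, ⟨i⟩, -⟩ := abelian_facts v (E v)
      set G := E v ≃ₐ[v.adicCompletion K] E v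
      haveI : NeZero (Nat.card G) := ⟨Nat.card_pos.ne'⟩
      let j : G ≃* rootsOfUnity (Nat.card G) ℂ := mulEquivOfCyclicCardEq
        (HasEnoughRootsOfUnity.natCard_rootsOfUnity ℂ (Nat.card G)).symm
      let φ := ((rootsOfUnity (Nat.card G) ℂ).subtype.comp (i.trans j).toMonoidHom).comp
        (QuotientGroup.mk' (normGroup (v.adicCompletion K) (E v)))
      have hker : φ.ker = normGroup (v.adicCompletion K) (E v) := by
        ext z
        rw [MonoidHom.mem_ker, ← QuotientGroup.eq_one_iff (N := normGroup (v.adicCompletion K) (E v))]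
        show ((i.trans j) (z : (v.adicCompletion K)ˣ ⧸ _) : ℂˣ) = 1 ↔ _
        rw [OneMemClass.coe_eq_one, EmbeddingLike.map_eq_one_iff]
      refine ⟨φ, fun _ => ⟨?_, fun z => ?_, hker⟩⟩
      · rw [hker]
        exact isOpen_normGroup v (E v)
      · obtain ⟨d, hd⟩ := hdeg v hv
        rw [hd, pow_mul, ← IsGalois.card_aut_eq_finrank,
          show φ z ^ Nat.card G = 1 from (mem_rootsOfUnity _ _).1 (SetLike.coe_mem _), one_pow]
    · exact ⟨1, fun h => absurd h hv⟩
  choose φ hφ using hloc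
  -- one more prime for the degree
  obtain ⟨u, -, huS, hu2⟩ : ∃ u : HeightOneSpectrum (𝓞 K), True ∧ u ∉ S ∧
      (2 : 𝓞 K) ∉ u.asIdeal := by
    obtain ⟨u, -, hu⟩ := ((infinite_artinAt (K := K) (1 : K ≃ₐ[K] K)).sdiff
      (S.finite_toSet.union ((Ideal.finite_factors (I := Ideal.span {(2 : 𝓞 K)})
        (by simp)).subset fun Q (hQ : (2 : 𝓞 K) ∈ Q.asIdeal) =>
          Ideal.dvd_span_singleton.2 hQ))).nonempty
    exact ⟨u, trivial, fun h => hu (Or.inl h), fun h => hu (Or.inr h)⟩
  obtain ⟨ζ, hζ⟩ := HasEnoughRootsOfUnity.exists_primitiveRoot ℂ n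
  set ζu := (hζ.isUnit hn.ne').unit
  have hζu : IsPrimitiveRoot ζu n := IsPrimitiveRoot.coe_units_iff.1 (by simpa [ζu] using hζ)
  set χ := Function.update φ u (unramChar u ζu)
  have hχS : ∀ v ∈ S, χ v = φ v := fun v hv =>
    Function.update_of_ne (fun e : v = u => huS (e ▸ hv)) _ φ
  have hχu : χ u = unramChar u ζu := Function.update_self u _ φ
  obtain ⟨Θ, hopen, hp, hΘn, hΘS, -⟩ := exists_character (S := insert u S) (χ := χ)
    (ψ := fun _ => 1) hn
    (fun v hv => by
      rcases Finset.mem_insert.1 hv with rfl | hv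
      · rw [hχu]; exact isOpen_ker_unramChar _ _
      · rw [hχS v hv]; exact (hφ v hv).1)
    (fun v hv z => by
      rcases Finset.mem_insert.1 hv with rfl | hv
      · rw [hχu, unramChar_apply, ← zpow_natCast, ← zpow_mul, mul_comm, zpow_mul, zpow_natCast,
          hζu.pow_eq_one, one_zpow]
      · rw [hχS v hv]; exact (hφ v hv).2.1 z)
    (fun _ _ => one_pow n) (fun _ _ _ => rfl) fun η hη hsub => absurd ⟨η, hη, fun v hv => by
      rcases Finset.mem_insert.1 (Finset.mem_coe.1 (hsub hv)) with rfl | h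
      · obtain ⟨⟨s, hs, -⟩, -⟩ := hη
        exact absurd (NoSquares.two_mem hs hv) hu2
      · exact h⟩ hspecial
  obtain ⟨L, i1, i2, i3, i4, i5, hcycL, -, hL, hdegL⟩ := exists_cyclic_of_character hn hopen hp hΘn
  refine ⟨L, i1, i2, i3, i4, i5, hcycL, hdegL ⟨single u (localEmb u (unif u)), ?_⟩, ?_⟩
  · rw [hΘS u (Finset.mem_insert_self u S), hχu, unramChar_apply, valued_localEmb_unif, log_exp,
      zpow_neg_one, orderOf_inv, hζu.eq_orderOf]
  intro v hv Q hQ
  subst hQ
  haveI := hcyc _ hv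
  haveI : IsMulCommutative (E (belowP K Q) ≃ₐ[(belowP K Q).adicCompletion K] E (belowP K Q)) :=
    ⟨⟨IsCyclic.commGroup.mul_comm⟩⟩
  haveI := isMulCommutative_completion (K := K) Q
  have hN : normGroup ((belowP K Q).adicCompletion K) (Q.adicCompletion L) =
      normGroup ((belowP K Q).adicCompletion K) (E (belowP K Q)) := by
    rw [← (hφ _ hv).2.2, ← hχS _ hv]
    refine (range_normC Q).trans ?_
    ext z
    rw [MonoidHom.mem_ker, MonoidHom.mem_ker, ← hΘS _ (Finset.mem_insert_of_mem hv) z,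
      ← artinIdele_single, ← MonoidHom.mem_ker, hL, MonoidHom.mem_ker]
  obtain ⟨e⟩ := algEquiv_of_normGroup_eq (belowP K Q) hN
  exact ⟨e.toRingEquiv, e.commutes⟩

end FA.GrunwaldWang

end
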