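import Mathlib.FieldTheory.IsAlgClosed.AlgebraicClosure
import Mathlib.RingTheory.RootsOfUnity.PrimitiveRoots
import Mathlib.GroupTheory.OrderOfElement

/-!
# The special element of Grunwald and Wang

For `η = ζ + ζ⁻¹`, `ζ` a primitive `2 ^ s`-th root of unity, and `2 ^ (s + 1) ∣ n` the element
`(2 + η) ^ (n / 2)` is an `n`-th power in a field exactly if one of `-1`, `2 + η`, `-(2 + η)` is a
square there.
-/

set_option autoImplicit false
set_option linter.unusedSectionVars false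
set_option linter.style.haveILetI false

noncomputable section

namespace FA.GrunwaldWang

variable {K : Type*} [Field K]

/-- `η` is the sum of a primitive `2 ^ s`-th root of unity and its inverse, with `2 ≤ s`. -/
def IsTwoLevel (s : ℕ) (η : K) : Prop :=
  2 ≤ s ∧ ∃ ζ : AlgebraicClosure K,
    IsPrimitiveRoot ζ (2 ^ s) ∧ algebraMap K (AlgebraicClosure K) η = ζ + ζ⁻¹

/-- None of `-1`, `2 + η`, `-(2 + η)` is a square in `F`. -/
def NoSquares (F : Type*) [Field F] [Algebra K F] (η : K) : Prop :=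
  ¬ IsSquare (-1 : F) ∧ ¬ IsSquare (algebraMap K F (2 + η)) ∧
    ¬ IsSquare (-algebraMap K F (2 + η))

/-- The special case for `n` and `η`. -/
def IsSpecial (n : ℕ) (η : K) : Prop :=
  (∃ s, IsTwoLevel s η ∧ 2 ^ (s + 1) ∣ n) ∧ NoSquares K η

/-- The special element. -/
def wangElt (n : ℕ) (η : K) : K := (2 + η) ^ (n / 2)

theorem IsSpecial.eight_dvd {n : ℕ} {η : K} (h : IsSpecial n η) : 8 ∣ n := by
  obtain ⟨⟨s, ⟨hs, -⟩, hn⟩, -⟩ := h
  exact (pow_dvd_pow 2 (show 3 ≤ s + 1 by omega)).trans hn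

theorem IsTwoLevel.exists_root {s : ℕ} {η : K} (h : IsTwoLevel s η) (C : Type*) [Field C]
    [Algebra K C] [IsAlgClosed C] :
    ∃ z : C, IsPrimitiveRoot z (2 ^ s) ∧ algebraMap K C η = z + z⁻¹ := by
  obtain ⟨-, ζ, hζ, he⟩ := h
  let φ : AlgebraicClosure K →ₐ[K] C := IsAlgClosed.lift
  refine ⟨φ ζ, hζ.map_of_injective φ.injective, ?_⟩
  rw [← φ.commutes, he, map_add, map_inv₀]

theorem IsTwoLevel.two_add_ne_zero {s : ℕ} {η : K} (h : IsTwoLevel s η) : 2 + η ≠ 0 := fun h0 => by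
  obtain ⟨hs, ζ, hζ, he⟩ := h
  have hz0 : ζ ≠ 0 := hζ.ne_zero (pow_ne_zero s two_ne_zero)
  have h1 : (1 + ζ) ^ 2 = ζ * algebraMap K (AlgebraicClosure K) (2 + η) := by
    rw [map_add, map_ofNat, he]
    field_simp
    ring
  rw [h0, map_zero, mul_zero, pow_eq_zero_iff two_ne_zero, add_eq_zero_iff_neg_eq] at h1
  have h2 : ζ ^ 2 = 1 := by rw [← h1]; ring
  have h3 := Nat.le_of_dvd two_pos (hζ.dvd_of_pow_eq_one 2 h2)
  have : 2 ^ 2 ≤ 2 ^ s := Nat.pow_le_pow_right two_pos hs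
  omega

/-- Below a level. -/
theorem IsTwoLevel.sq_sub_two {s : ℕ} {η : K} (h : IsTwoLevel (s + 1) η) (hs : 2 ≤ s) :
    IsTwoLevel s (η ^ 2 - 2) := by
  obtain ⟨-, ζ, hζ, he⟩ := h
  have hz0 : ζ ≠ 0 := hζ.ne_zero (pow_ne_zero _ two_ne_zero)
  refine ⟨hs, ζ ^ 2, hζ.pow (pow_pos two_pos _) (pow_succ' 2 s), ?_⟩
  rw [map_sub, map_pow, map_ofNat, he]
  field_simp
  ring

/-- **Roots of unity from `-1`.** If `-1` is a square the whole root lies in the field. -/
theorem root_mem_range {F C : Type*} [Field F] [Field C] [Algebra F C] {i : F} (hi : i * i = -1) :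
    ∀ (s : ℕ) (z : C), 2 ≤ s → IsPrimitiveRoot z (2 ^ s) →
      z + z⁻¹ ∈ (algebraMap F C).fieldRange → z ∈ (algebraMap F C).fieldRange := by
  intro s
  induction s with
  | zero => intro z hs; omega
  | succ s ih =>
    intro z hs hz he
    have hz0 : z ≠ 0 := hz.ne_zero (pow_ne_zero _ two_ne_zero)
    rcases Nat.lt_or_ge s 2 with h1 | h1
    · obtain rfl : s = 1 := by omega
      have h4 : z ^ 2 = -1 := by
        have h := hz.pow (pow_pos two_pos _) (show 2 ^ (1 + 1) = 2 * 2 by norm_num)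
        exact h.eq_neg_one_of_two_right
      have hi' : algebraMap F C i ^ 2 = -1 := by rw [sq, ← map_mul, hi, map_neg, map_one]
      rcases sq_eq_sq_iff_eq_or_eq_neg.1 (h4.trans hi'.symm) with h | h
      · exact h ▸ RingHom.mem_fieldRange.2 ⟨i, rfl⟩
      · exact h ▸ neg_mem (RingHom.mem_fieldRange.2 ⟨i, rfl⟩)
    · have h2 : z ^ 2 ∈ (algebraMap F C).fieldRange := by
        refine ih (z ^ 2) h1 (hz.pow (pow_pos two_pos _) (pow_succ' 2 s)) ?_
        rw [show z ^ 2 + (z ^ 2)⁻¹ = (z + z⁻¹) ^ 2 - 2 by field_simp; ring]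
        exact sub_mem (pow_mem he 2) (RingHom.mem_fieldRange.2 ⟨2, map_ofNat _ 2⟩)
      have hne : z ^ 2 + 1 ≠ 0 := fun h => by
        have h4 : z ^ 4 = 1 := by linear_combination (z ^ 2 - 1) * h
        have := Nat.le_of_dvd (by norm_num) (hz.dvd_of_pow_eq_one 4 h4)
        have : 2 ^ 3 ≤ 2 ^ (s + 1) := Nat.pow_le_pow_right two_pos (by omega)
        omega
      rw [show z = (z ^ 2 + 1) / (z + z⁻¹) by field_simp]
      exact div_mem (add_mem h2 (one_mem _)) he

variable {F : Type*} [Field F] [Algebra K F]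

theorem pow_half_of_isSquare {n : ℕ} (hn : Even n) {a : F} (h : IsSquare a) :
    ∃ c : F, c ^ n = a ^ (n / 2) := by
  obtain ⟨r, rfl⟩ := h
  obtain ⟨m, rfl⟩ := hn
  exact ⟨r, by rw [mul_pow, show (m + m) / 2 = m by omega, ← pow_add]⟩

/-- **A square makes the special element a power.** -/
theorem exists_pow_eq_wangElt {s n : ℕ} {η : K} (hs : IsTwoLevel s η) (hn : 2 ^ (s + 1) ∣ n)
    (h : IsSquare (-1 : F) ∨ IsSquare (algebraMap K F (2 + η)) ∨
      IsSquare (-algebraMap K F (2 + η))) :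
    ∃ c : F, c ^ n = algebraMap K F (wangElt n η) := by
  have hev : Even n := even_iff_two_dvd.2 ((dvd_pow_self 2 (by omega : s + 1 ≠ 0)).trans hn)
  rw [wangElt, map_pow]
  have h4 : 4 ∣ n := (pow_dvd_pow 2 (show 2 ≤ s + 1 by have := hs.1; omega)).trans hn
  rcases h with ⟨i, hi⟩ | h | h
  · obtain ⟨z, hz, he⟩ := hs.exists_root (AlgebraicClosure F)
    have hz0 : z ≠ 0 := hz.ne_zero (pow_ne_zero _ two_ne_zero)
    have hmem : z + z⁻¹ ∈ (algebraMap F (AlgebraicClosure F)).fieldRange := by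
      rw [← he, IsScalarTower.algebraMap_apply K F (AlgebraicClosure F)]
      exact RingHom.mem_fieldRange.2 ⟨_, rfl⟩
    obtain ⟨r, hr⟩ := RingHom.mem_fieldRange.1 (root_mem_range hi.symm s z hs.1 hz hmem)
    refine ⟨1 + r, (algebraMap F (AlgebraicClosure F)).injective ?_⟩
    rw [map_pow, map_pow, map_add, map_one, hr, ← IsScalarTower.algebraMap_apply, map_add,
      map_ofNat, he]
    obtain ⟨m, rfl⟩ := hn
    have hm : 2 ^ (s + 1) * m / 2 = 2 ^ s * m := by
      rw [pow_succ, mul_right_comm, Nat.mul_div_cancel _ two_pos]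
    rw [hm, show 2 ^ (s + 1) * m = 2 * (2 ^ s * m) by ring, pow_mul (1 + z) 2,
      show (1 + z) ^ 2 = z * (2 + (z + z⁻¹)) by field_simp; ring, mul_pow,
      pow_mul z (2 ^ s), hz.pow_eq_one, one_pow, one_mul]
  · exact pow_half_of_isSquare hev h
  · obtain ⟨c, hc⟩ := pow_half_of_isSquare hev h
    refine ⟨c, hc.trans ?_⟩
    obtain ⟨k, rfl⟩ := h4
    rw [show 4 * k / 2 = 2 * k by omega, pow_mul, neg_sq, ← pow_mul]

/-- **A power forces a square.** -/
theorem isSquare_of_pow_eq {n : ℕ} (hn : n ≠ 0) (hev : Even n) {c w : F} (hw : w ≠ 0)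
    (h : c ^ n = w ^ (n / 2)) : IsSquare (-1 : F) ∨ IsSquare w ∨ IsSquare (-w) := by
  obtain ⟨m, rfl⟩ := hev
  rw [show (m + m) / 2 = m by omega, ← two_mul, pow_mul] at h
  have hm : 0 < m := by omega
  set e := c ^ 2 / w with he
  have he1 : e ^ m = 1 := by rw [div_pow, h, div_self (pow_ne_zero _ hw)]
  have ho : 0 < orderOf e := orderOf_pos_iff.2 (isOfFinOrder_iff_pow_eq_one.2 ⟨m, hm, he1⟩)
  by_cases h4 : 4 ∣ orderOf e
  · left
    obtain ⟨k, hk⟩ := h4
    have hne : e ^ (2 * k) ≠ 1 := pow_ne_one_of_lt_orderOf (by omega) (by omega)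
    have hsq : (e ^ (2 * k)) ^ 2 = 1 ^ 2 := by
      rw [one_pow, ← pow_mul, show 2 * k * 2 = orderOf e by omega, pow_orderOf_eq_one]
    refine ⟨e ^ k, ?_⟩
    rw [← pow_add, ← two_mul]
    exact ((sq_eq_sq_iff_eq_or_eq_neg.1 hsq).resolve_left hne).symm
  · right
    obtain ⟨o, hoo, he2⟩ : ∃ o, Odd o ∧ e ^ (2 * o) = 1 := by
      rcases Nat.even_or_odd (orderOf e) with ⟨k, hk⟩ | hodd
      · refine ⟨k, ?_, by rw [two_mul, ← hk, pow_orderOf_eq_one]⟩
        rcases Nat.even_or_odd k with ⟨j, hj⟩ | hk'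
        · exact absurd ⟨j, by omega⟩ h4
        · exact hk'
      · exact ⟨orderOf e, hodd, by rw [mul_comm, pow_mul, pow_orderOf_eq_one, one_pow]⟩
    obtain ⟨q, rfl⟩ := hoo
    have hfac : (e ^ (2 * q + 1)) ^ 2 = 1 ^ 2 := by rw [one_pow, ← pow_mul, mul_comm, he2]
    have hc : c ^ 2 = e * w := (div_mul_cancel₀ _ hw).symm
    rcases sq_eq_sq_iff_eq_or_eq_neg.1 hfac with h1 | h1
    · refine Or.inl ⟨c * e ^ q, ?_⟩
      calc w = e ^ (2 * q + 1) * w := by rw [h1, one_mul]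
        _ = c * e ^ q * (c * e ^ q) := by linear_combination (-(e ^ q) ^ 2) * hc
    · refine Or.inr ⟨c * e ^ q, ?_⟩
      calc -w = e ^ (2 * q + 1) * w := by rw [h1, neg_one_mul]
        _ = c * e ^ q * (c * e ^ q) := by linear_combination (-(e ^ q) ^ 2) * hc

/-- **The special element is an `n`-th power exactly where one of the three is a square.** -/
theorem exists_pow_eq_wangElt_iff {s n : ℕ} {η : K} (hn0 : n ≠ 0) (hs : IsTwoLevel s η)
    (hn : 2 ^ (s + 1) ∣ n) :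
    (∃ c : F, c ^ n = algebraMap K F (wangElt n η)) ↔ ¬ NoSquares F η := by
  refine ⟨fun ⟨c, hc⟩ hno => ?_, fun h => exists_pow_eq_wangElt hs hn ?_⟩
  · rw [wangElt, map_pow] at hc
    rcases isSquare_of_pow_eq hn0
      (even_iff_two_dvd.2 ((dvd_pow_self 2 (by omega : s + 1 ≠ 0)).trans hn))
      ((map_ne_zero _).2 hs.two_add_ne_zero) hc with h | h | h
    exacts [hno.1 h, hno.2.1 h, hno.2.2 h]
  · simp only [NoSquares, not_and_or, not_not] at h
    exact h

/-- In the special case the element is no power in the field. -/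
theorem IsSpecial.not_pow {n : ℕ} {η : K} (hn : n ≠ 0) (h : IsSpecial n η) :
    ¬ ∃ c : K, c ^ n = wangElt n η := fun hc => by
  obtain ⟨⟨s, hs, hsn⟩, hno⟩ := h
  refine (exists_pow_eq_wangElt_iff (F := K) hn hs hsn).1 ?_ hno
  simpa using hc

end FA.GrunwaldWang

end
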