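import Fermat.Agent.LocalCFT.Powers
import Fermat.Agent.GrunwaldWang.Special

/-!
# Residues almost everywhere

An `n`-th power residue at almost every prime has, for every automorphism of a field with the `n`-th
roots of unity, a fixed `n`-th root (Chebotarev). So it is an `n`-th power, except for `8 ∣ n` in
the special case, where it may be the special element times an `n`-th power.
-/

set_option autoImplicit false
set_option linter.unusedSectionVars false
set_option linter.style.haveILetI false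

noncomputable section

open NumberField IsDedekindDomain IsMulCommutative
open FA.ArtinRec FA.LocalCFT
open scoped Pointwise Classical

namespace FA.GrunwaldWang

universe u

variable {K : Type u} [Field K] [NumberField K]

section Fixed

variable {n : ℕ} [NeZero n] (M : Type*) [Field M] [NumberField M] [Algebra K M] [IsGalois K M]
  [IsMulCommutative (M ≃ₐ[K] M)] [HasEnoughRootsOfUnity M n]

/-- **Every automorphism fixes a root.** -/
theorem exists_fixed_root {x : Kˣ} (hx : IsResidueAE n x) (σ : M ≃ₐ[K] M) :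
    ∃ y : M, y ^ n = algebraMap K M (x : K) ∧ σ y = y := by
  obtain ⟨y0, hy0⟩ := hx.exists_root M
  obtain ⟨X, s, hX, hs, e, B, hB, hBX⟩ := hx.exists_integer (NeZero.ne n)
  have hbad : (B ∪ {v : HeightOneSpectrum (𝓞 K) | (n : 𝓞 K) ∈ v.asIdeal}).Finite :=
    hB.union ((Ideal.finite_factors (I := Ideal.span {(n : 𝓞 K)})
      (by simpa using NeZero.ne n)).subset fun Q hQ => Ideal.dvd_span_singleton.2 hQ)
  obtain ⟨v, hvσ, hv⟩ := ((infinite_artinAt (K := K) σ).sdiff hbad).nonempty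
  simp only [Set.mem_union, Set.mem_ofPred_eq, not_or] at hv
  obtain ⟨Q, hQ, hfrob⟩ := artinAt_spec (L := M) v
  rw [show artinAt M v = σ from hvσ] at hfrob
  subst hQ
  obtain ⟨hXv, c, hc⟩ := hBX _ hv.1
  haveI := Q.isPrime
  haveI := (belowP K Q).isMaximal
  haveI : Finite (𝓞 K ⧸ (belowP K Q).asIdeal) :=
    Ideal.finiteQuotientOfFreeOfNeBot _ (belowP K Q).ne_bot
  let := Fintype.ofFinite (𝓞 K ⧸ (belowP K Q).asIdeal)
  let := Ideal.Quotient.field (belowP K Q).asIdeal
  have hsM : algebraMap K M (s : K) ≠ 0 := by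
    rw [Ne, map_eq_zero]
    exact RingOfIntegers.coe_ne_zero_iff.mpr hs
  have hY : (y0 * algebraMap K M (s : K)) ^ n = algebraMap K M (X : K) := by
    rw [mul_pow, hy0, ← map_pow, ← map_mul, ← intU_val X hX, e]
    simp
  have hXint : IsIntegral ℤ (algebraMap K M (X : K)) :=
    (algebraMap (𝓞 K) (𝓞 M) X).2
  let Y : 𝓞 M := ⟨y0 * algebraMap K M (s : K), IsIntegral.of_pow (NeZero.pos n) (hY ▸ hXint)⟩
  have hYn : Y ^ n = algebraMap (𝓞 K) (𝓞 M) X := RingOfIntegers.ext hY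
  have hnQ : (n : 𝓞 M) ∉ Q.asIdeal := fun h => hv.2 (by
    show algebraMap (𝓞 K) (𝓞 M) (n : 𝓞 K) ∈ Q.asIdeal
    rwa [map_natCast])
  obtain ⟨ζ, hζ⟩ := HasEnoughRootsOfUnity.exists_primitiveRoot M n
  let z : 𝓞 M := ⟨ζ, IsIntegral.of_pow (NeZero.pos n) (by rw [hζ.pow_eq_one]; exact isIntegral_one)⟩
  have hz : IsPrimitiveRoot z n :=
    IsPrimitiveRoot.of_map_of_injective (f := algebraMap (𝓞 M) M) hζ RingOfIntegers.coe_injective
  -- a root congruent to the residue
  set cM := algebraMap (𝓞 K) (𝓞 M) c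
  obtain ⟨ω, hω, hR⟩ : ∃ ω ∈ Polynomial.nthRootsFinset n (1 : 𝓞 M), cM - ω * Y ∈ Q.asIdeal := by
    refine (Ideal.IsPrime.prod_mem_iff (p := Q.asIdeal)).1 ?_
    rw [← hz.pow_sub_pow_eq_prod_sub_mul cM Y (NeZero.pos n), hYn, ← map_pow, ← map_sub, ← neg_sub,
      map_neg, neg_mem_iff]
    exact hc
  rw [Polynomial.mem_nthRootsFinset (NeZero.pos n)] at hω
  set R := ω * Y
  have hRn : R ^ n = algebraMap (𝓞 K) (𝓞 M) X := by rw [mul_pow, hω, one_mul, hYn]
  have hRQ : R ∉ Q.asIdeal := fun h => hXv (by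
    have h1 := Q.asIdeal.pow_mem_of_mem h n (NeZero.pos n)
    rwa [hRn] at h1)
  -- the Frobenius element fixes it
  set q := Nat.card (𝓞 K ⧸ (belowP K Q).asIdeal)
  have hcq : algebraMap (𝓞 K) (𝓞 M) (c ^ q - c) ∈ Q.asIdeal := by
    show c ^ q - c ∈ (belowP K Q).asIdeal
    rw [← Ideal.Quotient.eq_zero_iff_mem, map_sub, map_pow, sub_eq_zero,
      show q = Fintype.card (𝓞 K ⧸ (belowP K Q).asIdeal) from Nat.card_eq_fintype_card]
    exact FiniteField.pow_card _
  have hσ : σ • R - R ∈ Q.asIdeal := by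
    have h1 : σ • R - R ^ q ∈ Q.asIdeal := hfrob R
    have h2 : R ^ q - cM ^ q ∈ Q.asIdeal := Ideal.mem_of_dvd _ (sub_dvd_pow_sub_pow R cM q)
      (by rw [← neg_sub, neg_mem_iff]; exact hR)
    rw [map_sub, map_pow] at hcq
    have := Q.asIdeal.add_mem (Q.asIdeal.add_mem h1 h2) (Q.asIdeal.add_mem hcq hR)
    rwa [show σ • R - R ^ q + (R ^ q - cM ^ q) + (cM ^ q - cM + (cM - R)) = σ • R - R by ring]
      at this
  have hR0 : (R : M) ≠ 0 := fun h => hRQ (by
    rw [show R = 0 from RingOfIntegers.ext h]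
    exact Q.asIdeal.zero_mem)
  have hRnM : (R : M) ^ n = algebraMap K M (X : K) := congrArg (fun t : 𝓞 M => (t : M)) hRn
  have hξn : (σ (R : M) / R) ^ n = 1 := by
    rw [div_pow, ← map_pow, hRnM, AlgEquiv.commutes, div_self]
    rw [← hRnM]
    exact pow_ne_zero _ hR0
  let ξ : 𝓞 M := ⟨σ (R : M) / R, IsIntegral.of_pow (NeZero.pos n) (by rw [hξn]; exact isIntegral_one)⟩
  have hξR : σ • R = ξ * R := RingOfIntegers.ext (div_mul_cancel₀ _ hR0).symm
  have hξ1 : ξ = 1 := by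
    refine FA.GaussValuation.eq_of_mk_eq hnQ (RingOfIntegers.ext hξn) (one_pow n) ?_
    rw [Ideal.Quotient.eq]
    rw [hξR, show ξ * R - R = (ξ - 1) * R by ring] at hσ
    exact (Q.isPrime.mem_or_mem hσ).resolve_right hRQ
  have hfix : σ (R : M) = R := by
    have h := congrArg (fun t : 𝓞 M => (t : M)) hξR
    rw [hξ1, one_mul] at h
    exact h
  refine ⟨(R : M) / algebraMap K M (s : K), ?_, by rw [map_div₀, hfix, AlgEquiv.commutes]⟩
  rw [div_pow, hRnM, ← intU_val X hX, e, Units.val_mul, Units.val_pow_eq_pow_val, intU_val, map_mul,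
    map_pow, mul_div_cancel_right₀ _ (pow_ne_zero _ hsM)]

/-- **A cyclic group leaves no exception.** -/
theorem exists_pow_of_isCyclic [IsCyclic (M ≃ₐ[K] M)] {x : Kˣ} (hx : IsResidueAE n x) :
    ∃ w : Kˣ, w ^ n = x := by
  obtain ⟨σ, hσ⟩ := IsCyclic.exists_generator (α := M ≃ₐ[K] M)
  obtain ⟨y, hy, hfix⟩ := exists_fixed_root M hx σ
  obtain ⟨w, rfl⟩ := (IsGalois.mem_range_algebraMap_iff_fixed (F := K) y).2 fun g =>
    (Subgroup.zpowers_le (H := MulAction.stabilizer (M ≃ₐ[K] M) y)).2 hfix (hσ g)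
  rw [← map_pow] at hy
  have hw : w ^ n = (x : K) := (algebraMap K M).injective hy
  refine ⟨Units.mk0 w fun h => x.ne_zero ?_, Units.ext hw⟩
  rw [← hw, h, zero_pow (NeZero.ne n)]

end Fixed

/-- An abelian group of exponent a power of two with at most one involution is cyclic. -/
theorem isCyclic_of_involution_unique {G : Type*} [CommGroup G] [Finite G] {r : ℕ}
    (hexp : ∀ g : G, g ^ 2 ^ r = 1)
    (h : ∀ a b : G, a ^ 2 = 1 → b ^ 2 = 1 → a ≠ 1 → b ≠ 1 → a = b) : IsCyclic G := by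
  let := Fintype.ofFinite G
  have h2 : (Finset.univ.filter fun g : G => g ^ 2 = 1).card ≤ 2 := by
    by_contra! hc
    obtain ⟨a, b, c, ha, hb, hc', hab, hac, hbc⟩ := Finset.two_lt_card_iff.1 hc
    simp only [Finset.mem_filter, Finset.mem_univ, true_and] at ha hb hc'
    by_cases h1 : a = 1
    · subst h1
      exact hbc (h b c hb hc' hab.symm hac.symm)
    · by_cases h2 : b = 1
      · subst h2
        exact hac (h a c ha hc' hab hbc.symm)
      · exact hab (h a b ha hb h1 h2)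
  have hk : ∀ k, (Finset.univ.filter fun g : G => g ^ 2 ^ k = 1).card ≤ 2 ^ k := fun k => by
    induction k with
    | zero => simp [Finset.card_le_one]
    | succ k ih =>
      rw [pow_succ' 2 k]
      refine (Finset.card_le_mul_card_image (f := fun g : G => g ^ 2) _ 2 fun b hb => ?_).trans ?_
      · obtain ⟨a, -, rfl⟩ := Finset.mem_image.1 hb
        refine (Finset.card_le_card (t := (Finset.univ.filter fun g : G => g ^ 2 = 1).image (a * ·))
          fun g hg => ?_).trans (Finset.card_image_le.trans h2)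
        rw [Finset.mem_filter] at hg
        refine Finset.mem_image.2 ⟨a⁻¹ * g, Finset.mem_filter.2 ⟨Finset.mem_univ _, ?_⟩, ?_⟩
        · rw [mul_pow, inv_pow, hg.2, inv_mul_cancel]
        · rw [mul_inv_cancel_left]
      · refine Nat.mul_le_mul_left 2 (le_trans (Finset.card_le_card fun g hg => ?_) ih)
        obtain ⟨a, ha, rfl⟩ := Finset.mem_image.1 hg
        rw [Finset.mem_filter] at ha ⊢
        exact ⟨Finset.mem_univ _, by rw [← pow_mul]; exact ha.2⟩
  refine isCyclic_of_card_pow_eq_one_le fun m hm => ?_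
  obtain ⟨k, -, hkm⟩ := (Nat.dvd_prime_pow Nat.prime_two).1 (Nat.gcd_dvd_right m (2 ^ r))
  refine (Finset.card_le_card fun g hg => ?_).trans
    ((hk k).trans (Nat.le_of_dvd hm (hkm ▸ Nat.gcd_dvd_left _ _)))
  rw [Finset.mem_filter] at hg ⊢
  exact ⟨Finset.mem_univ _, by rw [← hkm]; exact pow_gcd_eq_one.2 ⟨hg.2, hexp g⟩⟩

section Prime

variable (ℓ r : ℕ) [hℓ : Fact ℓ.Prime]

theorem tower_autToPow_injective [NeZero (ℓ ^ r)] :
    Function.Injective ((towerGen_spec K ℓ r).autToPow K) :=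
  haveI : IsCyclotomicExtension {ℓ ^ r} K (tower K ℓ r) :=
    (towerRoot_spec K ℓ r).intermediateField_adjoin_isCyclotomicExtension K
  IsPrimitiveRoot.autToPow_injective K (towerGen_spec K ℓ r)

theorem tower_comm : IsMulCommutative ((tower K ℓ r) ≃ₐ[K] (tower K ℓ r)) :=
  haveI : NeZero (ℓ ^ r) := ⟨pow_ne_zero r hℓ.out.ne_zero⟩
  ⟨⟨fun a b => tower_autToPow_injective ℓ r (by rw [map_mul, map_mul, mul_comm])⟩⟩

/-- **Odd prime powers have no exception.** -/
theorem exists_pow_of_odd_prime (hodd : ℓ ≠ 2) {x : Kˣ} (hx : IsResidueAE (ℓ ^ r) x) :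
    ∃ w : Kˣ, w ^ ℓ ^ r = x := by
  haveI : NeZero (ℓ ^ r) := ⟨pow_ne_zero r hℓ.out.ne_zero⟩
  haveI := tower_comm (K := K) ℓ r
  haveI : IsCyclic (ZMod (ℓ ^ r))ˣ := ZMod.isCyclic_units_of_prime_pow ℓ hℓ.out hodd r
  haveI : IsCyclic ((tower K ℓ r) ≃ₐ[K] (tower K ℓ r)) :=
    isCyclic_of_injective _ (tower_autToPow_injective ℓ r)
  exact exists_pow_of_isCyclic (tower K ℓ r) hx

end Prime

section Two

variable {r : ℕ}

/-- Roots of unity of order dividing four. -/
theorem eq_or_of_pow_four {F : Type*} [Field F] {i w : F} (hi : i ^ 2 = -1) (h : w ^ 4 = 1) :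
    w = 1 ∨ w = -1 ∨ w = i ∨ w = -i := by
  have h' : (w - 1) * (w + 1) * ((w - i) * (w + i)) = 0 := by
    linear_combination h - (w ^ 2 - 1) * hi
  rcases mul_eq_zero.1 h' with h1 | h1 <;> rcases mul_eq_zero.1 h1 with h2 | h2
  exacts [Or.inl (sub_eq_zero.1 h2), Or.inr (Or.inl (eq_neg_of_add_eq_zero_left h2)),
    Or.inr (Or.inr (Or.inl (sub_eq_zero.1 h2))),
    Or.inr (Or.inr (Or.inr (eq_neg_of_add_eq_zero_left h2)))]

/-- An involution of the cyclotomic field of level `2 ^ r`. -/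
theorem involution_cases (hr : 1 ≤ r) {g : (tower K 2 r) ≃ₐ[K] (tower K 2 r)} (hg : g ^ 2 = 1) :
    g (towerGen K 2 r) = towerGen K 2 r ∨ g (towerGen K 2 r) = -towerGen K 2 r ∨
      g (towerGen K 2 r) = (towerGen K 2 r)⁻¹ ∨ g (towerGen K 2 r) = -(towerGen K 2 r)⁻¹ := by
  haveI : NeZero (2 ^ r) := ⟨pow_ne_zero r two_ne_zero⟩
  set ζ := towerGen K 2 r
  have hζ : IsPrimitiveRoot ζ (2 ^ r) := towerGen_spec K 2 r
  obtain ⟨t, -, ht⟩ := hζ.eq_pow_of_pow_eq_one (show g ζ ^ 2 ^ r = 1 by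
    rw [← map_pow, hζ.pow_eq_one, map_one])
  have h1 : ζ ^ (t * t) = ζ := by
    rw [pow_mul, ht, ← map_pow, ht, ← AlgEquiv.mul_apply, ← sq, hg, AlgEquiv.one_apply]
  have hζ0 : ζ ≠ 0 := hζ.ne_zero (NeZero.ne _)
  have hco : t.Coprime (2 ^ r) := (hζ.pow_iff_coprime (NeZero.pos _) t).1
    (ht ▸ hζ.map_of_injective g.injective)
  rcases Nat.even_or_odd t with hm | ⟨k, hk⟩
  · exfalso
    have := Nat.dvd_gcd hm.two_dvd (dvd_pow_self 2 (by omega : r ≠ 0))
    rw [hco] at this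
    norm_num at this
  · subst hk
    have h2 : ζ ^ (4 * (k * (k + 1))) = 1 := mul_right_cancel₀ hζ0 (by
      rw [one_mul, ← pow_succ, show 4 * (k * (k + 1)) + 1 = (2 * k + 1) * (2 * k + 1) by ring, h1])
    have hd : 2 ^ r ∣ 4 * (k * (k + 1)) := hζ.dvd_of_pow_eq_one _ h2
    rcases Nat.even_or_odd k with hev | hodd
    · have h4 : 2 ^ r ∣ 4 * k := by
        rw [← mul_assoc] at hd
        exact (Nat.Coprime.pow_left r
          ((Nat.prime_two.coprime_iff_not_dvd).2 (by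
            rw [← even_iff_two_dvd]; exact Nat.not_even_iff_odd.2 hev.add_one))).dvd_of_dvd_mul_right hd
      have h5 : (ζ ^ (2 * k)) ^ 2 = 1 ^ 2 := by
        rw [one_pow, ← pow_mul, show 2 * k * 2 = 4 * k by ring]
        exact (hζ.pow_eq_one_iff_dvd _).2 h4
      rcases sq_eq_sq_iff_eq_or_eq_neg.1 h5 with h | h
      · left; rw [← ht, pow_succ, h, one_mul]
      · right; left; rw [← ht, pow_succ, h, neg_one_mul]
    · have h4 : 2 ^ r ∣ 4 * (k + 1) := by
        rw [← mul_assoc, mul_right_comm] at hd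
        exact (Nat.Coprime.pow_left r
          ((Nat.prime_two.coprime_iff_not_dvd).2 (by
            rw [← even_iff_two_dvd]; exact Nat.not_even_iff_odd.2 hodd))).dvd_of_dvd_mul_right hd
      have h5 : (ζ ^ (2 * k + 2)) ^ 2 = 1 ^ 2 := by
        rw [one_pow, ← pow_mul, show (2 * k + 2) * 2 = 4 * (k + 1) by ring]
        exact (hζ.pow_eq_one_iff_dvd _).2 h4
      rcases sq_eq_sq_iff_eq_or_eq_neg.1 h5 with h | h
      · right; right; left
        rw [← ht]; exact eq_inv_of_mul_eq_one_left (by rw [← pow_succ]; exact h)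
      · right; right; right
        rw [← ht, ← inv_neg]
        exact eq_inv_of_mul_eq_one_left (by
          rw [mul_neg, ← pow_succ, show 2 * k + 1 + 1 = 2 * k + 2 from rfl, h, neg_neg])

/-- An automorphism is determined by the root. -/
theorem gal_ext_gen {a b : (tower K 2 r) ≃ₐ[K] (tower K 2 r)}
    (h : a (towerGen K 2 r) = b (towerGen K 2 r)) : a = b := by
  haveI : NeZero (2 ^ r) := ⟨pow_ne_zero r two_ne_zero⟩
  set ζ := towerGen K 2 r
  have hζ : IsPrimitiveRoot ζ (2 ^ r) := towerGen_spec K 2 r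
  refine tower_autToPow_injective 2 r (Units.ext ?_)
  have ha := hζ.autToPow_spec K a
  have hb := hζ.autToPow_spec K b
  exact ZMod.val_injective _ (hζ.pow_inj (ZMod.val_lt _) (ZMod.val_lt _)
    (ha.trans (h.trans hb.symm)))

/-- **Powers of two.** -/
theorem two_pow_case (r : ℕ) {x : Kˣ} (hx : IsResidueAE (2 ^ r) x) :
    (∃ w : Kˣ, w ^ 2 ^ r = x) ∨ ((∃ η : K, IsSpecial (2 ^ r) η) ∧
      ∀ η : K, IsSpecial (2 ^ r) η → ∃ w : K, (x : K) = wangElt (2 ^ r) η * w ^ 2 ^ r) := by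
  haveI : NeZero (2 ^ r) := ⟨pow_ne_zero r two_ne_zero⟩
  haveI := tower_comm (K := K) 2 r
  rcases Nat.lt_or_ge r 2 with hr | hr
  · left
    have hu : IsCyclic (ZMod (2 ^ r))ˣ := by
      rw [ZMod.isCyclic_units_two_pow_iff]
      omega
    haveI : IsCyclic ((tower K 2 r) ≃ₐ[K] (tower K 2 r)) :=
      isCyclic_of_injective _ (tower_autToPow_injective 2 r)
    exact exists_pow_of_isCyclic (tower K 2 r) hx
  set ζ := towerGen K 2 r
  have hζ : IsPrimitiveRoot ζ (2 ^ r) := towerGen_spec K 2 r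
  have hζ0 : ζ ≠ 0 := hζ.ne_zero (NeZero.ne _)
  let : CommGroup ((tower K 2 r) ≃ₐ[K] (tower K 2 r)) :=
    { (inferInstance : Group ((tower K 2 r) ≃ₐ[K] (tower K 2 r))) with mul_comm := mul_comm }
  have hexp : ∀ g : (tower K 2 r) ≃ₐ[K] (tower K 2 r), g ^ 2 ^ r = 1 := fun g =>
    tower_autToPow_injective 2 r (by
      rw [map_pow, map_one, ← orderOf_dvd_iff_pow_eq_one]
      refine (orderOf_dvd_card).trans ?_
      rw [ZMod.card_units_eq_totient, Nat.totient_prime_pow Nat.prime_two (by omega)]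
      simpa using pow_dvd_pow 2 (Nat.sub_le r 1))
  by_cases hτ : ∃ τ : (tower K 2 r) ≃ₐ[K] (tower K 2 r), τ ζ = ζ⁻¹
  swap
  · left
    push Not at hτ
    haveI : IsCyclic ((tower K 2 r) ≃ₐ[K] (tower K 2 r)) := by
      refine isCyclic_of_involution_unique hexp fun a b ha hb ha1 hb1 => gal_ext_gen ?_
      rcases involution_cases (by omega) ha with h | h | h | h
      · exact absurd (gal_ext_gen (b := 1) h) ha1
      · rcases involution_cases (by omega) hb with h' | h' | h' | h'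
        · exact absurd (gal_ext_gen (b := 1) h') hb1
        · exact h.trans h'.symm
        · exact absurd h' (hτ b)
        · refine absurd ?_ (hτ (a * b))
          rw [AlgEquiv.mul_apply, h', map_neg, map_inv₀, h, inv_neg, neg_neg]
      · exact absurd h (hτ a)
      · rcases involution_cases (by omega) hb with h' | h' | h' | h'
        · exact absurd (gal_ext_gen (b := 1) h') hb1
        · refine absurd ?_ (hτ (a * b))
          rw [AlgEquiv.mul_apply, h', map_neg, h, neg_neg]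
        · exact absurd h' (hτ b)
        · exact h.trans h'.symm
    exact exists_pow_of_isCyclic (tower K 2 r) hx
  obtain ⟨τ, hτ⟩ := hτ
  have hτμ : ∀ w : tower K 2 r, w ^ 2 ^ r = 1 → τ w = w⁻¹ := fun w hw => by
    obtain ⟨i, -, rfl⟩ := hζ.eq_pow_of_pow_eq_one hw
    rw [map_pow, hτ, inv_pow]
  set i := ζ ^ 2 ^ (r - 2) with hidef
  have hi4 : IsPrimitiveRoot i 4 := hζ.pow (NeZero.pos _) (by
    rw [show (4 : ℕ) = 2 ^ 2 by norm_num, ← pow_add, Nat.sub_add_cancel hr])
  have hi2 : i ^ 2 = -1 :=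
    (hi4.pow (by norm_num) (show 4 = 2 * 2 by norm_num)).eq_neg_one_of_two_right
  have hi0 : i ≠ 0 := hi4.ne_zero (by norm_num)
  have hiN : i ^ 2 ^ r = 1 := by
    rw [hidef, ← pow_mul, mul_comm, pow_mul, hζ.pow_eq_one, one_pow]
  have h2ne : (2 : tower K 2 r) ≠ 0 := two_ne_zero
  have hτi : τ i = -i := by
    rw [hτμ i hiN, inv_eq_of_mul_eq_one_right]
    rw [mul_neg, ← sq, hi2, neg_neg]
  -- the automorphisms fixing `i` form a cyclic group
  set H := MulAction.stabilizer ((tower K 2 r) ≃ₐ[K] (tower K 2 r)) i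
  haveI : IsCyclic H := by
    refine isCyclic_of_involution_unique (r := r) (fun g => Subtype.ext (hexp g))
      fun a b ha hb ha1 hb1 => Subtype.ext (gal_ext_gen ?_)
    have key : ∀ c : H, c ^ 2 = 1 → c ≠ 1 → (c : (tower K 2 r) ≃ₐ[K] (tower K 2 r)) ζ = -ζ := by
      intro c hc hc1
      have hci : (c : (tower K 2 r) ≃ₐ[K] (tower K 2 r)) i = i := c.2
      have hne : (c : (tower K 2 r) ≃ₐ[K] (tower K 2 r)) ζ ≠ ζ := fun h =>
        hc1 (Subtype.ext (gal_ext_gen (b := 1) h))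
      rcases involution_cases (by omega) (congrArg Subtype.val hc) with h | h | h | h
      · exact absurd h hne
      · exact h
      · refine absurd (hci.symm.trans ?_) (fun e : i = -i => hi0 (CharZero.eq_neg_self_iff.1 e))
        rw [hidef, map_pow, h, inv_pow, ← hidef, ← hτμ i hiN, hτi]
      · rcases Nat.lt_or_ge r 3 with h3 | h3
        · obtain rfl : r = 2 := by omega
          refine absurd (h.trans ?_) hne
          rw [neg_eq_iff_eq_neg]
          refine inv_eq_of_mul_eq_one_right ?_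
          simp only [hidef, Nat.sub_self, pow_zero, pow_one] at hi2
          rw [mul_neg, ← sq, hi2, neg_neg]
        · refine absurd (hci.symm.trans ?_) (fun e : i = -i => hi0 (CharZero.eq_neg_self_iff.1 e))
          rw [hidef, map_pow, h, Even.neg_pow ((Nat.even_pow' (by omega : r - 2 ≠ 0)).2 even_two),
            inv_pow, ← hidef, ← hτμ i hiN, hτi]
    exact (key a ha ha1).trans (key b hb hb1).symm
  obtain ⟨σ, hσ⟩ := IsCyclic.exists_generator (α := H)
  have hσi : (σ : (tower K 2 r) ≃ₐ[K] (tower K 2 r)) i = i := σ.2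
  have hfix : ∀ w : tower K 2 r, (σ : (tower K 2 r) ≃ₐ[K] (tower K 2 r)) w = w → τ w = w →
      ∃ k : K, algebraMap K _ k = w := fun w h1 h2 =>
    (IsGalois.mem_range_algebraMap_iff_fixed (F := K) w).2 fun g => by
      have hH : ∀ h : H, (h : (tower K 2 r) ≃ₐ[K] (tower K 2 r)) w = w := fun h =>
        (Subgroup.zpowers_le (H := MulAction.stabilizer H w)).2 (show σ • w = w from h1) (hσ h)
      have hgi : g i ^ 2 = i ^ 2 := by rw [← map_pow, hi2, map_neg, map_one]
      rcases sq_eq_sq_iff_eq_or_eq_neg.1 hgi with h | h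
      · exact hH ⟨g, h⟩
      · have h' : (τ * g) w = w := hH ⟨τ * g, show τ (g i) = i by rw [h, map_neg, hτi, neg_neg]⟩
        exact τ.injective (h'.trans h2.symm)
  have hnot : ∀ c : K, ∀ w : tower K 2 r, algebraMap K _ c * algebraMap K _ c = w * w → w ≠ 0 →
      ((σ : (tower K 2 r) ≃ₐ[K] (tower K 2 r)) w = -w ∨ τ w = -w) → False := by
    intro c w hcw hw hneg
    rcases mul_self_eq_mul_self_iff.1 hcw with h | h <;> rcases hneg with h' | h' <;>
      refine hw (CharZero.eq_neg_self_iff.1 ?_)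
    all_goals first
      | (conv_lhs => rw [← h]); conv_rhs => rw [← h', ← h, AlgEquiv.commutes]
      | (rw [eq_comm, neg_eq_iff_eq_neg] at h; conv_lhs => rw [h]); conv_rhs =>
          rw [← h', h, map_neg, AlgEquiv.commutes]
  obtain ⟨y, hy, hσy⟩ := exists_fixed_root (tower K 2 r) hx σ
  obtain ⟨y', hy', hτy'⟩ := exists_fixed_root (tower K 2 r) hx τ
  have hy0 : y ≠ 0 := fun h => by
    rw [h, zero_pow (NeZero.ne _), eq_comm, map_eq_zero] at hy
    exact x.ne_zero hy
  set ω := y' / y with hω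
  have hyω : y * ω = y' := mul_div_cancel₀ _ hy0
  have hωN : ω ^ 2 ^ r = 1 := by
    rw [hω, div_pow, hy', hy, div_self ((map_ne_zero _).2 x.ne_zero)]
  have hω0 : ω ≠ 0 := fun h => by
    rw [h, zero_pow (NeZero.ne _)] at hωN
    exact zero_ne_one hωN
  have hτy : τ y = y * ω ^ 2 := by
    have h := hτy'
    rw [← hyω, map_mul, hτμ ω hωN, mul_inv_eq_iff_eq_mul₀ hω0] at h
    rw [h]; ring
  have hσω2 : (σ : (tower K 2 r) ≃ₐ[K] (tower K 2 r)) ω ^ 2 = ω ^ 2 := by
    have h : (σ : (tower K 2 r) ≃ₐ[K] (tower K 2 r)) (τ y) = τ y := by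
      conv_rhs => rw [← hσy]
      rw [← AlgEquiv.mul_apply, ← AlgEquiv.mul_apply, mul_comm]
    rw [hτy, map_mul, hσy, map_pow] at h
    exact mul_left_cancel₀ hy0 h
  rcases sq_eq_sq_iff_eq_or_eq_neg.1 hσω2 with hσω | hσω
  · left
    obtain ⟨k, hk⟩ := hfix (y * ω) (by rw [map_mul, hσy, hσω]) (by rw [hyω, hτy'])
    have hkx : k ^ 2 ^ r = (x : K) := (algebraMap K (tower K 2 r)).injective (by
      rw [map_pow, hk, mul_pow, hωN, mul_one, hy])
    exact ⟨Units.mk0 k fun h => x.ne_zero (by rw [← hkx, h, zero_pow (NeZero.ne _)]),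
      Units.ext hkx⟩
  · right
    have hω4 : ω ^ 4 ≠ 1 := fun h => by
      have hself : (σ : (tower K 2 r) ≃ₐ[K] (tower K 2 r)) ω = ω := by
        rcases eq_or_of_pow_four hi2 h with h' | h' | h' | h' <;> rw [h'] <;> simp [hσi]
      exact hω0 (CharZero.eq_neg_self_iff.1 (hself.symm.trans hσω))
    have hωsq : ω ^ 2 + 1 ≠ 0 := fun h => hω4 (by linear_combination (ω ^ 2 - 1) * h)
    set u := ω + ω⁻¹ with hu
    have hu0 : u ≠ 0 := by
      rw [hu, show ω + ω⁻¹ = (ω ^ 2 + 1) / ω by field_simp]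
      exact div_ne_zero hωsq hω0
    have hσu : (σ : (tower K 2 r) ≃ₐ[K] (tower K 2 r)) u = -u := by
      rw [hu, map_add, map_inv₀, hσω, inv_neg, neg_add]
    have hτu : τ u = u := by
      rw [hu, map_add, map_inv₀, hτμ ω hωN, inv_inv, add_comm]
    obtain ⟨j, hjr, hj⟩ := (Nat.dvd_prime_pow Nat.prime_two).1 (orderOf_dvd_of_pow_eq_one hωN)
    have hωprim : IsPrimitiveRoot ω (2 ^ j) := hj ▸ IsPrimitiveRoot.orderOf ω
    have hj3 : 3 ≤ j := by
      by_contra hlt
      exact hω4 ((hωprim.pow_eq_one_iff_dvd 4).2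
        ((pow_dvd_pow 2 (by omega : j ≤ 2)).trans (by norm_num)))
    obtain ⟨s, rfl⟩ := Nat.exists_eq_succ_of_ne_zero (show j ≠ 0 by omega)
    have hu2 : u ^ 2 = 2 + (ω ^ 2 + (ω ^ 2)⁻¹) := by rw [hu]; field_simp; ring
    obtain ⟨η, hη⟩ := hfix (ω ^ 2 + (ω ^ 2)⁻¹)
      (by rw [map_add, map_inv₀, map_pow, hσω, neg_sq])
      (by rw [map_add, map_inv₀, map_pow, hτμ ω hωN, inv_pow, inv_inv, add_comm])
    have hu2' : u ^ 2 = algebraMap K _ (2 + η) := by rw [map_add, map_ofNat, hη, hu2]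
    refine ⟨⟨η, ⟨s, ⟨by omega, (tower K 2 r).val (ω ^ 2), ?_, ?_⟩, pow_dvd_pow 2 hjr⟩, ?_, ?_, ?_⟩,
      fun η' hη' => ?_⟩
    · exact (hωprim.pow (pow_pos two_pos _) (pow_succ' 2 s)).map_of_injective
        (tower K 2 r).val.injective
    · rw [← map_inv₀, ← map_add, ← hη, AlgHom.commutes]
    · rintro ⟨c, hc⟩
      refine hnot c i ?_ hi0 (Or.inr hτi)
      rw [← map_mul, ← hc, map_neg, map_one, ← sq, hi2]
    · rintro ⟨c, hc⟩
      rw [Algebra.algebraMap_self, RingHom.id_apply] at hc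
      refine hnot c u ?_ hu0 (Or.inl hσu)
      rw [← map_mul, ← hc, ← sq, hu2']
    · rintro ⟨c, hc⟩
      rw [Algebra.algebraMap_self, RingHom.id_apply] at hc
      refine hnot c (i * u) ?_ (mul_ne_zero hi0 hu0) (Or.inl (by rw [map_mul, hσi, hσu, mul_neg]))
      rw [← map_mul, ← hc, ← sq, mul_pow, hi2, hu2', map_neg, neg_one_mul]
    -- every special element of this kind gives the same class
    obtain ⟨⟨s', ⟨hs', ζ', hζ', he'⟩, hdvd⟩, hno⟩ := hη'
    obtain ⟨ω', hω'⟩ := IsAlgClosed.exists_pow_nat_eq ζ' two_pos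
    have hs'r : s' + 1 ≤ r := (Nat.pow_dvd_pow_iff_le_right (by norm_num)).1 hdvd
    have hω'N : ω' ^ 2 ^ r = 1 := by
      obtain ⟨e, he⟩ := Nat.exists_eq_add_of_le hs'r
      rw [he, pow_add, pow_succ', pow_mul, pow_mul, hω', hζ'.pow_eq_one, one_pow]
    let w' : tower K 2 r := ⟨ω', mem_tower_of_pow_eq_one K 2 hω'N⟩
    have hw'N : w' ^ 2 ^ r = 1 := Subtype.ext hω'N
    have hw'0 : w' ≠ 0 := fun h => by
      rw [h, zero_pow (NeZero.ne _)] at hw'N
      exact zero_ne_one hw'N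
    set u' := w' + w'⁻¹ with hu'
    have hu'2 : u' ^ 2 = algebraMap K _ (2 + η') := by
      apply Subtype.ext
      show (ω' + ω'⁻¹) ^ 2 = algebraMap K (AlgebraicClosure K) (2 + η')
      rw [map_add, he', map_ofNat, ← hω']
      have : ω' ≠ 0 := fun h => hw'0 (Subtype.ext h)
      field_simp
      ring
    have hu'0 : u' ≠ 0 := fun h => by
      rw [h, zero_pow two_ne_zero, eq_comm, map_eq_zero] at hu'2
      exact IsTwoLevel.two_add_ne_zero (s := s') ⟨hs', ζ', hζ', he'⟩ hu'2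
    have hτu' : τ u' = u' := by
      rw [hu', map_add, map_inv₀, hτμ w' hw'N, inv_inv, add_comm]
    have hσu' : (σ : (tower K 2 r) ≃ₐ[K] (tower K 2 r)) u' = -u' := by
      have hsq : (σ : (tower K 2 r) ≃ₐ[K] (tower K 2 r)) u' ^ 2 = u' ^ 2 := by
        rw [← map_pow, hu'2, AlgEquiv.commutes]
      refine (sq_eq_sq_iff_eq_or_eq_neg.1 hsq).resolve_left fun h => ?_
      obtain ⟨c, hc⟩ := hfix u' h hτu'
      refine hno.2.1 ⟨c, (algebraMap K (tower K 2 r)).injective ?_⟩
      rw [Algebra.algebraMap_self, RingHom.id_apply, map_mul, hc, ← sq, hu'2]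
    obtain ⟨k, hk⟩ := hfix (y * ω / u') (by rw [map_div₀, map_mul, hσy, hσω, hσu', mul_neg, neg_div_neg_eq])
      (by rw [map_div₀, hτu', hyω, hτy'])
    refine ⟨k, (algebraMap K (tower K 2 r)).injective ?_⟩
    have h2 : 2 * (2 ^ r / 2) = 2 ^ r := Nat.mul_div_cancel' (dvd_pow_self 2 (by omega))
    rw [map_mul, map_pow, hk, wangElt, map_pow, ← hu'2, ← pow_mul, h2, div_pow, mul_pow, hωN,
      mul_one, hy, mul_div_cancel₀ _ (pow_ne_zero _ hu'0)]

end Two

end FA.GrunwaldWang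

end
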