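import Fermat.Agent.GrunwaldWang.Kernel
import Fermat.Agent.LocalCFT.NormGroup

/-!
# The theorem of Grunwald and Wang on powers

An element that is an `n`-th power in all but finitely many completions is an `n`-th power, except in
the special case, where the only other class is that of the special element; the primes at which
that element is no power divide `2`.
-/

set_option autoImplicit false
set_option linter.unusedSectionVars false
set_option linter.style.haveILetI false

noncomputable section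

open NumberField IsDedekindDomain WithZero
open FA.ArtinRec FA.Ideles FA.LocalCFT
open FA.HasseCyclic (nearOne mem_nearOne exists_integer_near)
open FA.QuadFormsNF (valued_algebraMap)
open scoped Classical

namespace FA.GrunwaldWang

universe u

variable {K : Type u} [Field K] [NumberField K]

/-- Coprime exponents combine. -/
theorem exists_pow_mul_of_coprime {G : Type*} [CommGroup G] {a b : ℕ} (hab : a.Coprime b) {x u v : G}
    (hu : u ^ a = x) (hv : v ^ b = x) : ∃ w : G, w ^ (a * b) = x := by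
  have hg := Nat.gcd_eq_gcd_ab a b
  rw [hab.gcd_eq_one] at hg
  refine ⟨u ^ Nat.gcdB a b * v ^ Nat.gcdA a b, ?_⟩
  calc (u ^ Nat.gcdB a b * v ^ Nat.gcdA a b) ^ (a * b)
      = ((u ^ a) ^ ((b : ℤ) * Nat.gcdB a b)) * ((v ^ b) ^ ((a : ℤ) * Nat.gcdA a b)) := by
        simp only [← zpow_natCast, mul_zpow, ← zpow_mul, Nat.cast_mul]
        ring_nf
    _ = x := by
        rw [hu, hv, ← zpow_add, add_comm, ← hg]
        simp

/-- **Odd exponents have no exception.** -/
theorem exists_pow_of_odd {n : ℕ} (hodd : Odd n) {x : Kˣ} (hx : IsResidueAE n x) :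
    ∃ w : Kˣ, w ^ n = x := by
  induction n using Nat.recOnPosPrimePosCoprime with
  | prime_pow p j hp hj =>
    haveI := Fact.mk hp
    exact exists_pow_of_odd_prime p j (fun h => by
      subst h
      exact Nat.not_even_iff_odd.2 hodd ((Nat.even_pow' (by omega)).2 even_two)) hx
  | zero => exact absurd hodd (by decide)
  | one => exact ⟨x, pow_one x⟩
  | coprime a b ha hb hco iha ihb =>
    obtain ⟨hoa, hob⟩ := Nat.odd_mul.1 hodd
    obtain ⟨u, hu⟩ := iha hoa (hx.of_dvd (dvd_mul_right a b))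
    obtain ⟨v, hv⟩ := ihb hob (hx.of_dvd (dvd_mul_left b a))
    exact exists_pow_mul_of_coprime hco hu hv

theorem isSpecial_two_pow_mul_iff {r m : ℕ} (hm : Odd m) {η : K} :
    IsSpecial (2 ^ r * m) η ↔ IsSpecial (2 ^ r) η := by
  refine and_congr_left fun _ => exists_congr fun s => and_congr_right fun _ => ?_
  exact Nat.Coprime.dvd_mul_right
    (Nat.Coprime.pow_left _ ((Nat.prime_two.coprime_iff_not_dvd).2 hm.not_two_dvd_nat))

/-- **The classes of residues almost everywhere.** -/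
theorem exists_pow_or_special {n : ℕ} (hn : 0 < n) {x : Kˣ} (hx : IsResidueAE n x) :
    (∃ w : Kˣ, w ^ n = x) ∨ ((∃ η : K, IsSpecial n η) ∧
      ∀ η : K, IsSpecial n η → ∃ w : K, (x : K) = wangElt n η * w ^ n) := by
  obtain ⟨r, m, hm, rfl⟩ := Nat.exists_eq_two_pow_mul_odd hn.ne'
  have hco : (2 ^ r).Coprime m :=
    Nat.Coprime.pow_left _ ((Nat.prime_two.coprime_iff_not_dvd).2 hm.not_two_dvd_nat)
  obtain ⟨v, hv⟩ := exists_pow_of_odd hm (hx.of_dvd (dvd_mul_left m (2 ^ r)))
  rcases two_pow_case r (hx.of_dvd (dvd_mul_right (2 ^ r) m)) with ⟨u, hu⟩ | ⟨⟨η₀, hη₀⟩, hall⟩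
  · exact Or.inl (exists_pow_mul_of_coprime hco hu hv)
  right
  refine ⟨⟨η₀, (isSpecial_two_pow_mul_iff hm).2 hη₀⟩, fun η hη => ?_⟩
  have hη2 := (isSpecial_two_pow_mul_iff hm).1 hη
  obtain ⟨w, hw⟩ := hall η hη2
  obtain ⟨s, hs, hdvd⟩ := hη2.1
  have hne : (2 + η : K) ≠ 0 := hs.two_add_ne_zero
  obtain ⟨r', rfl⟩ : ∃ r', r = r' + 1 := Nat.exists_eq_succ_of_ne_zero (by
    rintro rfl
    rw [pow_zero, Nat.dvd_one, Nat.pow_eq_one] at hdvd
    omega)
  set a : Kˣ := Units.mk0 (2 + η) hne ^ 2 ^ r' with ha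
  have hA : ((a ^ m : Kˣ) : K) = wangElt (2 ^ (r' + 1) * m) η := by
    rw [wangElt, Units.val_pow_eq_pow_val, ha, Units.val_pow_eq_pow_val, Units.val_mk0, ← pow_mul]
    congr 1
    rw [pow_succ, mul_right_comm, Nat.mul_div_cancel _ two_pos]
  have ha2 : (a : K) = wangElt (2 ^ (r' + 1)) η := by
    rw [wangElt, ha, Units.val_pow_eq_pow_val, Units.val_mk0, pow_succ, Nat.mul_div_cancel _ two_pos]
  have hw0 : w ≠ 0 := fun h => x.ne_zero (by rw [hw, h, zero_pow (by positivity), mul_zero])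
  obtain ⟨k, hk⟩ := hm
  -- the quotient by the special element is a power for both factors
  have h1 : (v / a) ^ m = x / a ^ m := by rw [div_pow, hv]
  have h2 : (Units.mk0 w hw0 / Units.mk0 (2 + η) hne ^ k) ^ 2 ^ (r' + 1) = x / a ^ m := by
    have hxa : x = a * Units.mk0 w hw0 ^ 2 ^ (r' + 1) := Units.ext (by
      rw [Units.val_mul, ha2, hw, Units.val_pow_eq_pow_val, Units.val_mk0])
    have hke : a ^ m = a * (Units.mk0 (2 + η) hne ^ k) ^ 2 ^ (r' + 1) := by
      rw [hk, ha]
      simp only [← pow_mul, ← pow_add]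
      congr 1
      ring
    rw [div_pow, hxa, hke, mul_div_mul_left_eq_div]
  obtain ⟨z, hz⟩ := exists_pow_mul_of_coprime hco h2 h1
  refine ⟨(z : K), ?_⟩
  rw [← hA, ← Units.val_pow_eq_pow_val, ← Units.val_mul, hz, mul_div_cancel]

/-- A power in almost all completions is a residue almost everywhere. -/
theorem isResidueAE_of_local {n : ℕ} (hn : n ≠ 0) {S : Set (HeightOneSpectrum (𝓞 K))}
    (hS : S.Finite) {x : Kˣ}
    (h : ∀ v ∉ S, ∃ c : v.adicCompletion K, c ^ n = algebraMap K (v.adicCompletion K) (x : K)) :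
    IsResidueAE n x := by
  refine ⟨S, hS, fun v hv => ?_⟩
  obtain ⟨c, hc⟩ := h v hv
  have hc0 : c ≠ 0 := fun h0 => x.ne_zero (by
    rw [h0, zero_pow hn, eq_comm, map_eq_zero] at hc
    exact hc)
  obtain ⟨a, ha⟩ := exists_near v (Units.mk0 c hc0) 0
  refine ⟨a, (localEmb_mem_nearLocal v).1 ?_⟩
  have e : localEmb v x = Units.mk0 c hc0 ^ n := Units.ext (by
    rw [localEmb_val, Units.val_pow_eq_pow_val, Units.val_mk0, hc])
  rw [map_div, map_pow, e, ← div_pow, ← inv_div]
  exact pow_mem (inv_mem ha) n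

/-- The value of `2 + η` is a unit outside `2`. -/
theorem valuation_two_add {s : ℕ} {η : K} (h : IsTwoLevel s η) {v : HeightOneSpectrum (𝓞 K)}
    (hv : (2 : 𝓞 K) ∉ v.asIdeal) : v.valuation K (2 + η) = 1 := by
  have h2 : v.valuation K (2 : K) = 1 := by
    rw [show (2 : K) = ((2 : 𝓞 K) : K) from (map_ofNat _ 2).symm]
    exact v.valuation_eq_one_iff_notMem.2 hv
  suffices ∀ s (η : K), IsTwoLevel s η →
      v.valuation K (2 + η) = 1 ∧ v.valuation K (2 - η) = 1 from (this s η h).1
  intro s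
  induction s with
  | zero => intro η h; exact absurd h.1 (by norm_num)
  | succ s ih =>
    intro η h
    rcases Nat.lt_or_ge s 2 with hs | hs
    · obtain ⟨h2s, ζ, hζ, he⟩ := h
      obtain rfl : s = 1 := by omega
      have hζ2 : ζ ^ 2 = -1 :=
        (hζ.pow (pow_pos two_pos _) (show 2 ^ (1 + 1) = 2 * 2 by norm_num)).eq_neg_one_of_two_right
      have hη : η = 0 := (map_eq_zero (algebraMap K (AlgebraicClosure K))).1 (by
        rw [he, inv_eq_of_mul_eq_one_right (show ζ * -ζ = 1 by rw [mul_neg, ← sq, hζ2, neg_neg]),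
          add_neg_cancel])
      rw [hη, add_zero, sub_zero]
      exact ⟨h2, h2⟩
    · obtain ⟨-, ih2⟩ := ih _ (h.sq_sub_two hs)
      have hint : IsIntegral ℤ η := by
        obtain ⟨-, ζ, hζ, he⟩ := h
        refine (isIntegral_algebraMap_iff (algebraMap K (AlgebraicClosure K)).injective).1 ?_
        rw [he]
        exact (hζ.isIntegral (pow_pos two_pos _)).add (hζ.inv.isIntegral (pow_pos two_pos _))
      have hle : ∀ a : 𝓞 K, v.valuation K (a : K) ≤ 1 := fun a => v.valuation_le_one a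
      let η' : 𝓞 K := ⟨η, hint⟩
      have hp : v.valuation K (2 + η) ≤ 1 := by
        simpa [η', map_ofNat] using hle (2 + η')
      have hm : v.valuation K (2 - η) ≤ 1 := by
        simpa [η', map_ofNat] using hle (2 - η')
      have hprod : v.valuation K (2 + η) * v.valuation K (2 - η) = 1 := by
        rw [← map_mul, show (2 + η) * (2 - η) = 2 - (η ^ 2 - 2) by ring, ih2]
      constructor
      · exact le_antisymm hp (hprod ▸ mul_le_of_le_one_right' hm)
      · exact le_antisymm hm (hprod ▸ mul_le_of_le_one_left' hp)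

/-- **Outside `2` what is near one is a square.** -/
theorem exists_sq_of_nearLocal {v : HeightOneSpectrum (𝓞 K)} (hv : (2 : 𝓞 K) ∉ v.asIdeal)
    {z : (v.adicCompletion K)ˣ} (hz : z ∈ nearLocal v 0) :
    ∃ w : (v.adicCompletion K)ˣ, w ^ 2 = z := by
  haveI := v.isMaximal
  haveI : Finite (𝓞 K ⧸ v.asIdeal) := Ideal.finiteQuotientOfFreeOfNeBot _ v.ne_bot
  let := Fintype.ofFinite (𝓞 K ⧸ v.asIdeal)
  let := Ideal.Quotient.field v.asIdeal
  set q := Fintype.card (𝓞 K ⧸ v.asIdeal) with hq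
  have hodd : Odd q := by
    refine Nat.odd_iff.2 (FiniteField.odd_card_of_char_ne_two fun h => hv ?_)
    rw [← Ideal.Quotient.eq_zero_iff_mem, map_ofNat]
    haveI : CharP (𝓞 K ⧸ v.asIdeal) 2 := by
      rw [← h]
      exact ringChar.charP _
    exact CharP.cast_eq_zero (𝓞 K ⧸ v.asIdeal) 2
  have hqv : Valued.v ((q : v.adicCompletion K)) ≤ exp (-1) := by
    rw [← map_natCast (algebraMap K (v.adicCompletion K)), valued_algebraMap,
      show (q : K) = ((q : 𝓞 K) : K) from (map_natCast _ q).symm, v.valuation_of_algebraMap]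
    have hmem : (q : 𝓞 K) ∈ v.asIdeal ^ 1 := by
      rw [pow_one, ← Ideal.Quotient.eq_zero_iff_mem, map_natCast, hq]
      exact Nat.cast_card_eq_zero _
    exact_mod_cast (v.intValuation_le_pow_iff_mem _ 1).2 hmem
  have hstep : ∀ k, z ^ q ^ k ∈ nearLocal v k := fun k => by
    induction k with
    | zero => rwa [pow_zero, pow_one]
    | succ k ih =>
      rw [pow_succ, pow_mul]
      set y := z ^ q ^ k
      refine (mem_nearLocal v).2 ?_
      rw [Units.val_pow_eq_pow_val, ← geom_sum_mul, map_mul]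
      refine (mul_le_mul' ?_ ((mem_nearLocal v).1 ih)).trans (by
        rw [← exp_add, exp_le_exp]
        push_cast
        omega : exp (-(1 : ℤ)) * exp (-((k + 1 : ℕ) : ℤ)) ≤ exp (-((k + 1 + 1 : ℕ) : ℤ)))
      rw [show ∑ i ∈ Finset.range q, (y : v.adicCompletion K) ^ i =
        ∑ i ∈ Finset.range q, ((y : v.adicCompletion K) ^ i - 1) + (q : v.adicCompletion K) by
          rw [Finset.sum_sub_distrib, Finset.sum_const, Finset.card_range, nsmul_one, sub_add_cancel]]
      refine Valuation.map_add_le _ (Valuation.map_sum_le _ fun i _ => ?_) hqv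
      rw [← Units.val_pow_eq_pow_val]
      exact (mem_nearLocal v).1 (pow_mem (nearLocal_anti v (Nat.zero_le k) ih) i)
  obtain ⟨k, hk⟩ := exists_nearLocal_pow v (d := 2) two_ne_zero
  obtain ⟨w, hw⟩ := hk _ (hstep k)
  obtain ⟨j, hj⟩ := hodd.pow (n := k)
  refine ⟨w / z ^ j, ?_⟩
  rw [div_pow, hw, hj, ← pow_mul, mul_comm j 2, pow_succ, mul_div_cancel_left]

/-- **The exceptional primes divide `2`.** -/
theorem NoSquares.two_mem {s : ℕ} {η : K} (hs : IsTwoLevel s η) {v : HeightOneSpectrum (𝓞 K)}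
    (h : NoSquares (v.adicCompletion K) η) : (2 : 𝓞 K) ∈ v.asIdeal := by
  by_contra hv
  haveI := v.isMaximal
  haveI : Finite (𝓞 K ⧸ v.asIdeal) := Ideal.finiteQuotientOfFreeOfNeBot _ v.ne_bot
  let := Fintype.ofFinite (𝓞 K ⧸ v.asIdeal)
  let := Ideal.Quotient.field v.asIdeal
  set w := Units.mk0 (2 + η) hs.two_add_ne_zero
  have hord : ord v w = 0 := (ord_eq_iff v).2 (by
    rw [Units.val_mk0, valuation_two_add hs hv, neg_zero, exp_zero])
  obtain ⟨r, hr⟩ := exists_integer_near v hord 0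
  obtain ⟨hr0, hnear⟩ := hr r (by rw [sub_self]; exact Ideal.zero_mem _)
  obtain ⟨t, ht⟩ := exists_sq_of_nearLocal hv ((localEmb_mem_nearLocal v).2 (inv_mem hnear))
  have lift : ∀ e : 𝓞 K, e ∉ v.asIdeal → IsSquare (Ideal.Quotient.mk v.asIdeal e) →
      IsSquare (algebraMap K (v.adicCompletion K) (e : K)) := fun e he ⟨c, hc⟩ => by
    obtain ⟨c, rfl⟩ := Ideal.Quotient.mk_surjective c
    rw [← map_mul, Ideal.Quotient.eq] at hc
    have hcv : c ∉ v.asIdeal := fun h' => he (by
      have := v.asIdeal.add_mem hc (v.asIdeal.mul_mem_left c h')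
      rwa [sub_add_cancel] at this)
    have hc0 : algebraMap K (v.adicCompletion K) (c : K) ≠ 0 := by
      rw [Ne, map_eq_zero]
      exact RingOfIntegers.coe_ne_zero_iff.mpr fun h' => hcv (h' ▸ v.asIdeal.zero_mem)
    have he0 : algebraMap K (v.adicCompletion K) (e : K) ≠ 0 := by
      rw [Ne, map_eq_zero]
      exact RingOfIntegers.coe_ne_zero_iff.mpr fun h' => he (h' ▸ v.asIdeal.zero_mem)
    obtain ⟨u, hu⟩ := exists_sq_of_nearLocal hv (z := Units.mk0 _ he0 / Units.mk0 _ hc0 ^ 2) (by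
      rw [mem_nearLocal, Units.val_div_eq_div_val, Units.val_pow_eq_pow_val, Units.val_mk0,
        Units.val_mk0, div_sub_one (pow_ne_zero _ hc0), map_div₀, ← map_pow, ← map_sub,
        valued_algebraMap, valued_algebraMap, map_pow, v.valuation_eq_one_iff_notMem.2 hcv, one_pow,
        div_one, show (e : K) - (c : K) ^ 2 = ((e - c * c : 𝓞 K) : K) by push_cast; ring,
        v.valuation_of_algebraMap, v.intValuation_le_pow_iff_mem, zero_add, pow_one]
      exact hc)
    refine ⟨(u : v.adicCompletion K) * algebraMap K _ (c : K), ?_⟩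
    have h1 := congrArg Units.val hu
    rw [Units.val_pow_eq_pow_val, Units.val_div_eq_div_val, Units.val_pow_eq_pow_val, Units.val_mk0,
      Units.val_mk0, eq_div_iff (pow_ne_zero _ hc0)] at h1
    rw [← h1]
    ring
  have hwr : algebraMap K (v.adicCompletion K) (2 + η) =
      algebraMap K (v.adicCompletion K) (r : K) * (t : v.adicCompletion K) ^ 2 := by
    have h1 := congrArg Units.val ht
    rw [Units.val_pow_eq_pow_val, localEmb_val, Units.val_inv_eq_inv_val, Units.val_div_eq_div_val,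
      intU_val, inv_div, map_div₀] at h1
    have hr0' : algebraMap K (v.adicCompletion K) (r : K) ≠ 0 := by
      rw [Ne, map_eq_zero]
      exact RingOfIntegers.coe_ne_zero_iff.mpr hr0
    have hw0' : algebraMap K (v.adicCompletion K) ((w : Kˣ) : K) ≠ 0 := by
      rw [Ne, map_eq_zero]
      exact w.ne_zero
    rw [h1]
    field_simp
    rfl
  have hrv : r ∉ v.asIdeal := by
    rw [← ord_intU_eq_zero_iff v hr0]
    have h1 := FA.HasseCyclic.ord_eq_zero_of_nearOne hnear
    rw [ord_div] at h1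
    omega
  have hsqw : ∀ ε : K, IsSquare (algebraMap K (v.adicCompletion K) (ε * r)) →
      IsSquare (algebraMap K (v.adicCompletion K) (ε * (2 + η))) := fun ε he => by
    rw [map_mul] at he ⊢
    rw [hwr, ← mul_assoc, sq]
    exact he.mul (IsSquare.mul_self _)
  by_cases h1 : IsSquare (-1 : 𝓞 K ⧸ v.asIdeal)
  · have := lift (-1) (fun h' => v.isPrime.ne_top
      (Ideal.eq_top_of_isUnit_mem _ h' isUnit_one.neg)) (by rwa [map_neg, map_one])
    refine h.1 ?_
    simpa using this
  by_cases h2 : IsSquare (Ideal.Quotient.mk v.asIdeal r)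
  · have := hsqw 1 (by rw [one_mul]; exact lift r hrv h2)
    refine h.2.1 ?_
    rwa [one_mul] at this
  · have hc : ringChar (𝓞 K ⧸ v.asIdeal) ≠ 2 := fun hc => h1 ⟨1, by
      haveI : CharP (𝓞 K ⧸ v.asIdeal) 2 := by
        rw [← hc]
        exact ringChar.charP _
      rw [CharTwo.neg_eq, mul_one]⟩
    have hr0'' : Ideal.Quotient.mk v.asIdeal r ≠ 0 := by
      rwa [Ne, Ideal.Quotient.eq_zero_iff_mem]
    have hneg : IsSquare (-Ideal.Quotient.mk v.asIdeal r) := by
      rw [← quadraticChar_one_iff_isSquare (neg_ne_zero.2 hr0''),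
        show -Ideal.Quotient.mk v.asIdeal r = -1 * Ideal.Quotient.mk v.asIdeal r by ring, map_mul,
        quadraticChar_neg_one_iff_not_isSquare.mpr h1,
        quadraticChar_neg_one_iff_not_isSquare.mpr h2]
      norm_num
    have := hsqw (-1) (by
      have h3 := lift (-r) (fun h' => hrv (neg_mem_iff.1 h')) (by rwa [map_neg])
      simpa using h3)
    refine h.2.2 ?_
    simpa using this

/-- **The theorem of Grunwald and Wang on powers.** -/
theorem exists_pow_or_special_of_local {n : ℕ} (hn : 0 < n)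
    {S : Set (HeightOneSpectrum (𝓞 K))} (hS : S.Finite) {x : Kˣ}
    (h : ∀ v ∉ S, ∃ c : v.adicCompletion K, c ^ n = algebraMap K (v.adicCompletion K) (x : K)) :
    (∃ w : Kˣ, w ^ n = x) ∨ ((∃ η : K, IsSpecial n η) ∧ ∀ η : K, IsSpecial n η →
      {v : HeightOneSpectrum (𝓞 K) | NoSquares (v.adicCompletion K) η} ⊆ S ∧
        ∃ w : K, (x : K) = wangElt n η * w ^ n) := by
  rcases exists_pow_or_special hn (isResidueAE_of_local hn.ne' hS h) with hp | ⟨hex, hall⟩
  · exact Or.inl hp
  refine Or.inr ⟨hex, fun η hη => ?_⟩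
  obtain ⟨w, hw⟩ := hall η hη
  refine ⟨fun v hv => by_contra fun hvS => ?_, w, hw⟩
  obtain ⟨c, hc⟩ := h v hvS
  obtain ⟨⟨s, hs, hsn⟩, -⟩ := hη
  refine (exists_pow_eq_wangElt_iff (F := v.adicCompletion K) hn.ne' hs hsn).1
    ⟨c / algebraMap K _ w, ?_⟩ hv
  have hw0 : w ≠ 0 := fun h0 => x.ne_zero (by rw [hw, h0, zero_pow hn.ne', mul_zero])
  rw [div_pow, hc, hw, map_mul, map_pow,
    mul_div_cancel_right₀ _ (pow_ne_zero _ ((map_ne_zero _).2 hw0))]

/-- The special element in a completion. -/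
theorem exists_pow_completion_iff {n : ℕ} (hn : n ≠ 0) {η : K} (hη : IsSpecial n η)
    (v : HeightOneSpectrum (𝓞 K)) :
    (∃ c : v.adicCompletion K, c ^ n = algebraMap K (v.adicCompletion K) (wangElt n η)) ↔
      ¬ NoSquares (v.adicCompletion K) η := by
  obtain ⟨⟨s, hs, hsn⟩, -⟩ := hη
  exact exists_pow_eq_wangElt_iff hn hs hsn

theorem finite_noSquares {n : ℕ} {η : K} (hη : IsSpecial n η) :
    {v : HeightOneSpectrum (𝓞 K) | NoSquares (v.adicCompletion K) η}.Finite := by
  obtain ⟨⟨s, hs, -⟩, -⟩ := hη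
  exact (Ideal.finite_factors (I := Ideal.span {(2 : 𝓞 K)})
    (by simp)).subset fun v hv => Ideal.dvd_span_singleton.2 (NoSquares.two_mem hs hv)

/-! ### The rationals -/

/-- `0` gives the special case over `ℚ`. -/
theorem isSpecial_rat {n : ℕ} (h8 : 8 ∣ n) : IsSpecial n (0 : ℚ) := by
  refine ⟨⟨2, ⟨le_rfl, ?_⟩, by simpa using h8⟩, ?_, ?_, ?_⟩
  · haveI : NeZero ((2 ^ 2 : ℕ) : AlgebraicClosure ℚ) := ⟨by norm_num⟩
    obtain ⟨ζ, hζ⟩ := HasEnoughRootsOfUnity.exists_primitiveRoot (AlgebraicClosure ℚ) (2 ^ 2)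
    refine ⟨ζ, hζ, ?_⟩
    have hζ2 : ζ ^ 2 = -1 :=
      (hζ.pow (pow_pos two_pos _) (show 2 ^ 2 = 2 * 2 by norm_num)).eq_neg_one_of_two_right
    rw [map_zero, inv_eq_of_mul_eq_one_right (show ζ * -ζ = 1 by rw [mul_neg, ← sq, hζ2, neg_neg]),
      add_neg_cancel]
  · exact fun h => by linarith [h.nonneg]
  · rw [Rat.isSquare_iff]
    norm_num
  · intro h
    have := h.nonneg
    norm_num at this

end FA.GrunwaldWang

end
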